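/-
P-SS2 row 897 (SS2-A6 KCABS, owner helper19; architect helper11, findings #471).

DEFINITIONS and the exact STATEMENT of the abstract assembly of steps S3-S5 of #471.

Chart setting of `Fermat.Agent.H45.klssAbs_general`: `A` a discrete valuation ring whose
uniformiser is the prime number `q` (unramified base), `E₀ ⊆ Ω` fields of characteristic zero,
`x ∈ E₀` a coordinate, `n > 0` a unit of `A`, `ζ ∈ A` a primitive `n`-th root of unity.
Three "vertical" valuation subrings `V20, V11, V02` of `E₀` whose intersection is the Gauss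
closure `C(x)`.

* `KcVert q V`   : what is used of a vertical valuation: `q ∈ 𝔪_V`, `𝔪_V ^ q ⊆ q V` (true when
  `v(q) ≤ q`, e.g. `v(q) ∈ {1, q - 1}`), and the archimedean property (true for a DVR).
* `KcThree`      : LPZ data at a closed point through which all three components pass, with the
  two TORIC relations `a b^(q-1) = w`, `a^q = w' b^(q-1)` (`a = c20 / c02`, `b = c11 / c02`).
* `KcOne`        : LPZ data at a closed point on exactly one component.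
* `KcLoc`        : one of the four cases.
* `KcAbsStatement` : the conclusion `u ^ (q (q² - 1))` is an `n`-th power in `E₀`.
-/
import Fermat.Agent.H45.SS.KLSSAbs2

set_option autoImplicit false

noncomputable section

namespace Fermat.Agent.H19.SS2

open Fermat.Agent.H22.KL

/-- What is used of a vertical valuation `V` (residue characteristic `q`):
`q` is a non-unit, `y ^ q ∈ q V` for every non-unit `y`, and `V` is archimedean. -/
structure KcVert {E₀ : Type} [Field E₀] (q : ℕ) (V : ValuationSubring E₀) : Prop where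
  q_mem : (q : E₀) ∈ V.nonunits
  pow_q : ∀ y ∈ V.nonunits, y ^ q / (q : E₀) ∈ V
  arch : ∀ s ∈ V.nonunits, ∀ c : E₀, ∃ N₀ : ℕ, ∀ N : ℕ, N₀ ≤ N → s ^ N * c ∈ V.nonunits

/-- `z ∈ B_𝔪` for a maximal ideal `𝔪` of the chart `B(y)`: `b z ∈ B(y)` for some `b ∉ 𝔪`. -/
def KcInLoc (A : Type) [CommRing A] (E₀ : Type) [Field E₀] [Algebra A E₀] (y : E₀)
    (𝔪 : Ideal (chartClosure A E₀ y)) (z : E₀) : Prop :=
  ∃ b : chartClosure A E₀ y, b ∉ 𝔪 ∧ (b : E₀) * z ∈ chartClosure A E₀ y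

/-- The valuation `V` passes through `𝔪`: every element of `B(y)` which is a non-unit of `V`
lies in `𝔪`. -/
def KcThrough (A : Type) [CommRing A] (E₀ : Type) [Field E₀] [Algebra A E₀] (y : E₀)
    (𝔪 : Ideal (chartClosure A E₀ y)) (V : ValuationSubring E₀) : Prop :=
  ∀ s : chartClosure A E₀ y, (s : E₀) ∈ V.nonunits → s ∈ 𝔪

/-- The valuation `W` does not pass through `𝔪`. -/
def KcAway (A : Type) [CommRing A] (E₀ : Type) [Field E₀] [Algebra A E₀] (y : E₀)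
    (𝔪 : Ideal (chartClosure A E₀ y)) (W : ValuationSubring E₀) : Prop :=
  ∃ s : chartClosure A E₀ y, (s : E₀) ∈ W.nonunits ∧ s ∉ 𝔪

/-- LPZ data with roots of unity at a closed point on all three components, together with the
two TORIC relations. -/
def KcThree (A : Type) [CommRing A] (E₀ : Type) [Field E₀] [Algebra A E₀] (q n : ℕ) (y : E₀)
    (V20 V11 V02 : ValuationSubring E₀) (u : E₀) (w w' : A)
    (𝔪 : Ideal (chartClosure A E₀ y)) : Prop :=
  ∃ (Hinv : E₀) (c20 c11 c02 : A), c20 ^ n = 1 ∧ c11 ^ n = 1 ∧ c02 ^ n = 1 ∧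
    Hinv - algebraMap A E₀ c20 ∈ V20.nonunits ∧
    Hinv - algebraMap A E₀ c11 ∈ V11.nonunits ∧
    Hinv - algebraMap A E₀ c02 ∈ V02.nonunits ∧
    KcInLoc A E₀ y 𝔪 (u * Hinv ^ n) ∧
    c20 * c11 ^ (q - 1) = w * c02 ^ q ∧ c20 ^ q = w' * c11 ^ (q - 1) * c02

/-- LPZ data at a closed point on exactly one component `V` (the other two, `W₁` and `W₂`, do
not pass through it). -/
def KcOne (A : Type) [CommRing A] (E₀ : Type) [Field E₀] [Algebra A E₀] (n : ℕ) (y : E₀)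
    (V W₁ W₂ : ValuationSubring E₀) (u : E₀) (𝔪 : Ideal (chartClosure A E₀ y)) : Prop :=
  KcThrough A E₀ y 𝔪 V ∧ KcAway A E₀ y 𝔪 W₁ ∧ KcAway A E₀ y 𝔪 W₂ ∧
    ∃ Hinv : E₀, Hinv - 1 ∈ V.nonunits ∧ KcInLoc A E₀ y 𝔪 (u * Hinv ^ n)

/-- The local hypothesis at a closed point `𝔪` of the chart `B(y)`. -/
def KcLoc (A : Type) [CommRing A] (E₀ : Type) [Field E₀] [Algebra A E₀] (q n : ℕ) (y : E₀)
    (V20 V11 V02 : ValuationSubring E₀) (u : E₀) (w w' : A)
    (𝔪 : Ideal (chartClosure A E₀ y)) : Prop :=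
  KcThree A E₀ q n y V20 V11 V02 u w w' 𝔪 ∨ KcOne A E₀ n y V20 V11 V02 u 𝔪 ∨
    KcOne A E₀ n y V11 V20 V02 u 𝔪 ∨ KcOne A E₀ n y V02 V20 V11 u 𝔪

/-- **SS2-A6 (KCABS)**: abstract assembly of steps S3-S5 of findings #471. -/
def KcAbsStatement : Prop :=
  ∀ (A : Type) [CommRing A] [IsDomain A] [IsDiscreteValuationRing A]
    (E₀ Ω : Type) [Field E₀] [Field Ω] [Algebra A E₀] [Algebra A Ω] [Algebra E₀ Ω]
    [IsScalarTower A E₀ Ω] [CharZero E₀],
    Function.Injective (algebraMap A E₀) →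
    ∀ (q : ℕ), q.Prime → Irreducible ((q : ℕ) : A) →
    ∀ (x : E₀), Transcendental A x →
    (∃ d : ℕ, Nonempty (Module.Basis (Fin d) (chartField A E₀ x) E₀)) →
    (∀ z : Ω, IsIntegral A z → z ∈ (algebraMap A Ω).range) →
    ∀ (n : ℕ), 0 < n → IsUnit ((n : ℕ) : A) → ∀ (ζ : A), IsPrimitiveRoot ζ n →
    ∀ (V20 V11 V02 : ValuationSubring E₀),
    (∀ z : E₀, z ∈ gaussClosure A E₀ ((q : ℕ) : A) x ↔ z ∈ V20 ∧ z ∈ V11 ∧ z ∈ V02) →
    KcVert q V20 → KcVert q V11 → KcVert q V02 →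
    (∀ a b c : E₀, ∃ g : E₀,
      g - a ∈ V20.nonunits ∧ g - b ∈ V11.nonunits ∧ g - c ∈ V02.nonunits) →
    ∀ (u : E₀), u - 1 ∈ V20.nonunits → u - 1 ∈ V11.nonunits → u - 1 ∈ V02.nonunits →
    ∀ (w w' : A), w ^ n = 1 → w' ^ n = 1 →
    (∀ 𝔪 : Ideal (chartClosure A E₀ x), 𝔪.IsMaximal →
      algebraMap A (chartClosure A E₀ x) ((q : ℕ) : A) ∈ 𝔪 →
      KcLoc A E₀ q n x V20 V11 V02 u w w' 𝔪) →
    (∀ 𝔪 : Ideal (chartClosure A E₀ x⁻¹), 𝔪.IsMaximal →
      algebraMap A (chartClosure A E₀ x⁻¹) ((q : ℕ) : A) ∈ 𝔪 →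
      KcLoc A E₀ q n x⁻¹ V20 V11 V02 u w w' 𝔪) →
    (∃ ω : Ω, ω ^ n = algebraMap E₀ Ω (u ^ (q * (q ^ 2 - 1)))) →
    ∃ w₀ : E₀, w₀ ^ n = u ^ (q * (q ^ 2 - 1))

end Fermat.Agent.H19.SS2

end
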