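/-
P-SS2 row 897 (SS2-A6 KCABS), part A: calculus of principal units `1 + 𝔪_V` of a valuation
subring (Mathlib only), and the `q`-th power step `z ≡ 1 mod 𝔪_V ⟹ z ^ q ≡ 1 mod q V`.
-/
import Fermat.Agent.H19.SS2.KcAbsDefs

set_option autoImplicit false

noncomputable section

namespace Fermat.Agent.H19.SS2

section Units

variable {K : Type} [Field K]

/-- `z` is a principal unit of `V`: `z ≡ 1` modulo `𝔪_V`. -/
def KcU1 (V : ValuationSubring K) (z : K) : Prop := z - 1 ∈ V.nonunits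

theorem kcU1_iff (V : ValuationSubring K) (z : K) : KcU1 V z ↔ V.valuation (z - 1) < 1 :=
  V.mem_nonunits_iff

theorem KcU1.val {V : ValuationSubring K} {z : K} (h : KcU1 V z) : V.valuation z = 1 := by
  have h1 := Valuation.map_one_add_of_lt (v := V.valuation) ((kcU1_iff V z).1 h)
  rwa [add_sub_cancel] at h1

theorem KcU1.ne_zero {V : ValuationSubring K} {z : K} (h : KcU1 V z) : z ≠ 0 := by
  intro h0
  have := h.val
  rw [h0, map_zero] at this
  exact zero_ne_one this

theorem KcU1.mem {V : ValuationSubring K} {z : K} (h : KcU1 V z) : z ∈ V :=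
  (V.valuation_le_one_iff z).1 h.val.le

theorem kcU1_one (V : ValuationSubring K) : KcU1 V 1 := by
  rw [kcU1_iff, sub_self, map_zero]
  exact zero_lt_one

theorem KcU1.mul {V : ValuationSubring K} {a b : K} (ha : KcU1 V a) (hb : KcU1 V b) :
    KcU1 V (a * b) := by
  rw [kcU1_iff]
  have e : a * b - 1 = (a - 1) * b + (b - 1) := by ring
  rw [e]
  refine lt_of_le_of_lt (Valuation.map_add _ _ _) (max_lt ?_ ((kcU1_iff V b).1 hb))
  rw [map_mul, hb.val, mul_one]
  exact (kcU1_iff V a).1 ha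

theorem KcU1.inv {V : ValuationSubring K} {a : K} (ha : KcU1 V a) : KcU1 V a⁻¹ := by
  rw [kcU1_iff]
  have e : a⁻¹ - 1 = -(a - 1) * a⁻¹ := by
    field_simp [ha.ne_zero]
    ring
  rw [e, map_mul, map_inv₀, ha.val, inv_one, mul_one, Valuation.map_neg]
  exact (kcU1_iff V a).1 ha

theorem KcU1.div {V : ValuationSubring K} {a b : K} (ha : KcU1 V a) (hb : KcU1 V b) :
    KcU1 V (a / b) := by
  rw [div_eq_mul_inv]
  exact ha.mul hb.inv

theorem KcU1.pow {V : ValuationSubring K} {a : K} (ha : KcU1 V a) (k : ℕ) :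
    KcU1 V (a ^ k) := by
  induction k with
  | zero => rw [pow_zero]; exact kcU1_one V
  | succ k ih => rw [pow_succ]; exact ih.mul ha

/-- A root of unity has valuation one. -/
theorem kc_val_of_pow_eq_one (V : ValuationSubring K) {c : K} {n : ℕ} (hn : 0 < n)
    (hc : c ^ n = 1) : V.valuation c = 1 := by
  have h : (V.valuation c) ^ n = 1 := by rw [← map_pow, hc, map_one]
  exact (pow_eq_one_iff_of_nonneg zero_le hn.ne').mp h

/-- `z ≡ c` modulo `𝔪_V` with `c` of valuation one gives `z / c ≡ 1`. -/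
theorem kcU1_div_of_sub {V : ValuationSubring K} {z c : K} (hc : V.valuation c = 1)
    (h : z - c ∈ V.nonunits) : KcU1 V (z / c) := by
  have hc0 : c ≠ 0 := by
    intro h0
    rw [h0, map_zero] at hc
    exact zero_ne_one hc
  rw [kcU1_iff]
  have e : z / c - 1 = (z - c) * c⁻¹ := by
    field_simp [hc0]
  rw [e, map_mul, map_inv₀, hc, inv_one, mul_one]
  exact V.mem_nonunits_iff.1 h

/-- `z ≡ c` and `c ≡ 1 ⟹ z ≡ 1`; in the form used: a principal unit times a constant equal to
`1`. -/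
theorem KcU1.congr {V : ValuationSubring K} {a b : K} (ha : KcU1 V a) (hab : a = b) :
    KcU1 V b := hab ▸ ha

/-- The `q`-th power step: `z ≡ 1 mod 𝔪_V ⟹ (z ^ q - 1) / q ∈ V`. -/
theorem kcU1_pow_q {V : ValuationSubring K} {q : ℕ} (hq : q.Prime) (hV : KcVert q V) {z : K}
    (hz : KcU1 V z) : (z ^ q - 1) / (q : K) ∈ V := by
  by_cases hq0 : (q : K) = 0
  · rw [hq0, div_zero]
    exact V.zero_mem
  · have hyn : z - 1 ∈ V.nonunits := hz
    have hyV : z - 1 ∈ V := V.nonunits_le hyn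
    obtain ⟨r, hr⟩ := exists_add_pow_prime_eq hq (⟨z - 1, hyV⟩ : V) (1 : V)
    have hr' : (z - 1 + 1) ^ q = (z - 1) ^ q + 1 ^ q + (q : K) * (z - 1) * 1 * (r : K) := by
      have h := congrArg (fun t : V => (t : K)) hr
      simpa using h
    have e : (z ^ q - 1) / (q : K) = (z - 1) ^ q / (q : K) + (z - 1) * (r : K) := by
      have hz' : z ^ q = (z - 1 + 1) ^ q := by rw [sub_add_cancel]
      rw [hz', hr']
      field_simp
      ring
    rw [e]
    exact V.add_mem _ _ (hV.pow_q _ hyn) (V.mul_mem _ _ hyV r.2)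

/-- `z ≡ 1 mod 𝔪_V ⟹ z ^ q ∈ V`. -/
theorem KcU1.pow_mem {V : ValuationSubring K} {z : K} (hz : KcU1 V z) (k : ℕ) : z ^ k ∈ V :=
  (hz.pow k).mem

end Units

end Fermat.Agent.H19.SS2

end
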