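/-
P-SS2 row 897 (SS2-A6 KCABS), part B: chart facts (denominators in `B(y)`, the local predicate
`KcInLoc`) and the ADJUSTMENT of a local function at the components NOT through the point.
-/
import Fermat.Agent.H19.SS2.KcUnits
import Fermat.Agent.H91.KLNorm.Inst

set_option autoImplicit false
set_option linter.style.haveILetI false

noncomputable section

namespace Fermat.Agent.H19.SS2

open Polynomial
open Fermat.Agent.H22.KL
open Fermat.Agent.H87.KL (evX IntX GC)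
open Fermat.Agent.H91.KLNorm (polyAlgE polyAlgK)

section Val

variable {K : Type} [Field K]

theorem kc_nonunit_mul_mem {V : ValuationSubring K} {a b : K} (ha : a ∈ V.nonunits)
    (hb : b ∈ V) : a * b ∈ V.nonunits := by
  rw [V.mem_nonunits_iff, map_mul]
  exact mul_lt_one_of_nonneg_of_lt_one_left zero_le (V.mem_nonunits_iff.1 ha)
    ((V.valuation_le_one_iff b).2 hb)

theorem kc_mul_nonunit_mem {V : ValuationSubring K} {a b : K} (ha : a ∈ V)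
    (hb : b ∈ V.nonunits) : a * b ∈ V.nonunits := by
  rw [mul_comm]
  exact kc_nonunit_mul_mem hb ha

theorem kc_adj_id1 (t a r : K) (hs : t + r ≠ 0) :
    (t * a + r) / (t + r) - 1 = (t * a - t) * (t + r)⁻¹ := by
  field_simp
  ring

theorem kc_adj_id2 (t h r : K) (ht : t ≠ 0) (hh : h ≠ 0) (hs : t + r ≠ 0) :
    (t * h⁻¹ + r) / (t + r) * h - 1 =
      (r * ((1 - h⁻¹) / (t * h⁻¹))) * (1 + r * (1 / t))⁻¹ := by
  have h1 : 1 + r * (1 / t) ≠ 0 := by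
    have : 1 + r * (1 / t) = (t + r) / t := by
      field_simp
    rw [this]
    exact div_ne_zero hs ht
  field_simp
  ring

theorem kc_val_eq_one {V : ValuationSubring K} {a : K} (ha : a ∈ V) (hna : a ∉ V.nonunits) :
    V.valuation a = 1 :=
  le_antisymm ((V.valuation_le_one_iff a).2 ha) (not_lt.1 fun h => hna (V.mem_nonunits_iff.2 h))

end Val

section Denom

variable {A : Type} [CommRing A] [IsDomain A] {E : Type} [Field E] [Algebra A E]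

/-- Every element of `E` has a nonzero denominator in `B(y)`. -/
theorem kc_exists_denom {y : E} (hy : Transcendental A y)
    (hfd : ∃ d : ℕ, Nonempty (Module.Basis (Fin d) (chartField A E y) E)) (a : E) :
    ∃ d : chartClosure A E y, (d : E) ≠ 0 ∧ (d : E) * a ∈ chartClosure A E y := by
  obtain ⟨n, ⟨b⟩⟩ := hfd
  letI := polyAlgE A E y
  letI := polyAlgK A E y
  haveI := Fermat.Agent.H91.KLNorm.polyAlg_isScalarTower A E y
  haveI := Fermat.Agent.H91.KLNorm.polyAlg_isFractionRing A E hy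
  haveI : FiniteDimensional ↥(chartField A E y) E := Module.Finite.of_basis b
  have halg : IsAlgebraic ↥(chartField A E y) a := Algebra.IsAlgebraic.isAlgebraic a
  have halg' : IsAlgebraic A[X] a :=
    (IsFractionRing.isAlgebraic_iff A[X] ↥(chartField A E y) E).mpr halg
  obtain ⟨d, hd0, hd⟩ := halg'.exists_integral_multiple
  refine ⟨⟨aeval y d, mem_chartClosure_of_mem_chartRing
    (Fermat.Agent.H87.KL.aeval_mem_chartRing y d)⟩, ?_, ?_⟩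
  · intro h0
    apply hd0
    apply transcendental_iff_injective.1 hy
    rw [map_zero]
    exact h0
  · rw [Fermat.Agent.H87.KL.mem_chartClosure_iff]
    exact hd

end Denom

section Loc

variable {A : Type} [CommRing A] {E₀ : Type} [Field E₀] [Algebra A E₀] {y : E₀}
  {𝔪 : Ideal (chartClosure A E₀ y)}

theorem KcInLoc.mul [𝔪.IsPrime] {z z' : E₀} (hz : KcInLoc A E₀ y 𝔪 z)
    (hz' : KcInLoc A E₀ y 𝔪 z') : KcInLoc A E₀ y 𝔪 (z * z') := by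
  obtain ⟨b, hb, hbz⟩ := hz
  obtain ⟨b', hb', hbz'⟩ := hz'
  refine ⟨b * b', fun h => ?_, ?_⟩
  · rcases Ideal.IsPrime.mem_or_mem ‹𝔪.IsPrime› h with h | h
    · exact hb h
    · exact hb' h
  · have e : ((b * b' : chartClosure A E₀ y) : E₀) * (z * z') =
        ((b : E₀) * z) * ((b' : E₀) * z') := by
      push_cast
      ring
    rw [e]
    exact Subalgebra.mul_mem _ hbz hbz'

theorem kcInLoc_one [𝔪.IsPrime] : KcInLoc A E₀ y 𝔪 1 := by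
  refine ⟨1, fun h => ?_, ?_⟩
  · exact (Ideal.IsPrime.ne_top ‹𝔪.IsPrime›) ((Ideal.eq_top_iff_one 𝔪).2 h)
  · rw [mul_one]
    exact (1 : chartClosure A E₀ y).2

theorem KcInLoc.pow [𝔪.IsPrime] {z : E₀} (hz : KcInLoc A E₀ y 𝔪 z) (k : ℕ) :
    KcInLoc A E₀ y 𝔪 (z ^ k) := by
  induction k with
  | zero => rw [pow_zero]; exact kcInLoc_one
  | succ k ih => rw [pow_succ]; exact ih.mul hz

theorem KcInLoc.congr {z z' : E₀} (hz : KcInLoc A E₀ y 𝔪 z) (h : z = z') :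
    KcInLoc A E₀ y 𝔪 z' := h ▸ hz

end Loc

section Adjust

variable {A : Type} [CommRing A] [IsDomain A] {E₀ : Type} [Field E₀] [Algebra A E₀]

/-- **ADJUSTMENT**: `𝔪` a prime of `B(y)` containing `ϖ`, `V` a valuation through `𝔪`, `W₁`,
`W₂` archimedean valuations not through `𝔪`, `h ≠ 0` arbitrary.  There is `e ∈ B_𝔪` with
`e ≡ 1` on `V` and `e h ≡ 1` on `W₁`, `W₂`. -/
theorem kc_adjust (ϖ : A) (hϖ0 : algebraMap A E₀ ϖ ≠ 0) {y : E₀} (hy : Transcendental A y)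
    (hfd : ∃ d : ℕ, Nonempty (Module.Basis (Fin d) (chartField A E₀ y) E₀))
    (𝔪 : Ideal (chartClosure A E₀ y)) [𝔪.IsPrime]
    (hϖ𝔪 : algebraMap A (chartClosure A E₀ y) ϖ ∈ 𝔪)
    (V W₁ W₂ : ValuationSubring E₀)
    (hBV : ∀ z ∈ chartClosure A E₀ y, z ∈ V)
    (hBW₁ : ∀ z ∈ chartClosure A E₀ y, z ∈ W₁)
    (hBW₂ : ∀ z ∈ chartClosure A E₀ y, z ∈ W₂)
    (hϖV : algebraMap A E₀ ϖ ∈ V.nonunits)
    (harch₁ : ∀ s ∈ W₁.nonunits, ∀ c : E₀, ∃ N₀ : ℕ, ∀ N : ℕ, N₀ ≤ N → s ^ N * c ∈ W₁.nonunits)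
    (harch₂ : ∀ s ∈ W₂.nonunits, ∀ c : E₀, ∃ N₀ : ℕ, ∀ N : ℕ, N₀ ≤ N → s ^ N * c ∈ W₂.nonunits)
    (hV : KcThrough A E₀ y 𝔪 V) (h₁ : KcAway A E₀ y 𝔪 W₁) (h₂ : KcAway A E₀ y 𝔪 W₂)
    (h : E₀) (hh : h ≠ 0) :
    ∃ e : E₀, KcInLoc A E₀ y 𝔪 e ∧ KcU1 V e ∧ KcU1 W₁ (e * h) ∧ KcU1 W₂ (e * h) := by
  obtain ⟨s₁, hs₁W, hs₁𝔪⟩ := h₁
  obtain ⟨s₂, hs₂W, hs₂𝔪⟩ := h₂
  obtain ⟨d, hd0, hda⟩ := kc_exists_denom hy hfd h⁻¹
  -- the elements `t = ϖ d`, `σ = s₁ s₂` of `B(y)`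
  set tB : chartClosure A E₀ y := algebraMap A (chartClosure A E₀ y) ϖ * d with htB
  set σB : chartClosure A E₀ y := s₁ * s₂ with hσB
  have htB𝔪 : tB ∈ 𝔪 := 𝔪.mul_mem_right d hϖ𝔪
  have hσB𝔪 : σB ∉ 𝔪 := fun hmem =>
    (Ideal.IsPrime.mem_or_mem ‹𝔪.IsPrime› hmem).elim hs₁𝔪 hs₂𝔪
  have htE : (tB : E₀) = algebraMap A E₀ ϖ * (d : E₀) := rfl
  have ht0 : (tB : E₀) ≠ 0 := by
    rw [htE]
    exact mul_ne_zero hϖ0 hd0
  have hσE : (σB : E₀) = (s₁ : E₀) * (s₂ : E₀) := rfl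
  have hσW₁ : (σB : E₀) ∈ W₁.nonunits := by
    rw [hσE]
    exact kc_nonunit_mul_mem hs₁W (hBW₁ _ s₂.2)
  have hσW₂ : (σB : E₀) ∈ W₂.nonunits := by
    rw [hσE]
    exact kc_mul_nonunit_mem (hBW₂ _ s₁.2) hs₂W
  -- choose `N`
  obtain ⟨N₁, hN₁⟩ := harch₁ _ hσW₁ (1 / (tB : E₀))
  obtain ⟨N₂, hN₂⟩ := harch₁ _ hσW₁ ((1 - h⁻¹) / ((tB : E₀) * h⁻¹))
  obtain ⟨N₃, hN₃⟩ := harch₂ _ hσW₂ (1 / (tB : E₀))
  obtain ⟨N₄, hN₄⟩ := harch₂ _ hσW₂ ((1 - h⁻¹) / ((tB : E₀) * h⁻¹))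
  set N : ℕ := max (max N₁ N₂) (max N₃ N₄) with hN
  have hN1 : N₁ ≤ N := le_trans (le_max_left _ _) (le_max_left _ _)
  have hN2 : N₂ ≤ N := le_trans (le_max_right _ _) (le_max_left _ _)
  have hN3 : N₃ ≤ N := le_trans (le_max_left _ _) (le_max_right _ _)
  have hN4 : N₄ ≤ N := le_trans (le_max_right _ _) (le_max_right _ _)
  have hrB𝔪 : σB ^ N ∉ 𝔪 := fun hmem => hσB𝔪 (Ideal.IsPrime.mem_of_pow_mem ‹𝔪.IsPrime› N hmem)
  have hsum𝔪 : tB + σB ^ N ∉ 𝔪 := by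
    intro hmem
    apply hrB𝔪
    have := 𝔪.sub_mem hmem htB𝔪
    rwa [add_sub_cancel_left] at this
  have hsumE : ((tB + σB ^ N : chartClosure A E₀ y) : E₀) = (tB : E₀) + (σB : E₀) ^ N := rfl
  have hsum0 : (tB : E₀) + (σB : E₀) ^ N ≠ 0 := by
    intro h0
    apply hsum𝔪
    have : tB + σB ^ N = 0 := Subtype.ext (by rw [hsumE, h0]; rfl)
    rw [this]
    exact 𝔪.zero_mem
  have hta : (tB : E₀) * h⁻¹ ∈ chartClosure A E₀ y := by
    rw [htE, mul_assoc]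
    exact Subalgebra.mul_mem _ (algebraMap A (chartClosure A E₀ y) ϖ).2 hda
  refine ⟨((tB : E₀) * h⁻¹ + (σB : E₀) ^ N) / ((tB : E₀) + (σB : E₀) ^ N), ?_, ?_, ?_, ?_⟩
  · -- `e ∈ B_𝔪`
    refine ⟨tB + σB ^ N, hsum𝔪, ?_⟩
    rw [hsumE, mul_div_cancel₀ _ hsum0]
    exact Subalgebra.add_mem _ hta (σB ^ N).2
  · -- `e ≡ 1` on `V`
    rw [kcU1_iff]
    have e1 : ((tB : E₀) * h⁻¹ + (σB : E₀) ^ N) / ((tB : E₀) + (σB : E₀) ^ N) - 1 =
        algebraMap A E₀ ϖ * ((d : E₀) * h⁻¹ - (d : E₀)) * ((tB : E₀) + (σB : E₀) ^ N)⁻¹ := by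
      rw [kc_adj_id1 _ _ _ hsum0, htE]
      ring
    have hv1 : V.valuation ((tB : E₀) + (σB : E₀) ^ N) = 1 := by
      refine kc_val_eq_one (hBV _ (tB + σB ^ N).2) fun hnu => hsum𝔪 (hV _ hnu)
    rw [e1, map_mul, map_inv₀, hv1, inv_one, mul_one]
    exact V.mem_nonunits_iff.1 (kc_nonunit_mul_mem hϖV
      (sub_mem (hBV _ hda) (hBV _ d.2)))
  · -- `e h ≡ 1` on `W₁`
    rw [kcU1_iff]
    have e1 : ((tB : E₀) * h⁻¹ + (σB : E₀) ^ N) / ((tB : E₀) + (σB : E₀) ^ N) * h - 1 =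
        ((σB : E₀) ^ N * ((1 - h⁻¹) / ((tB : E₀) * h⁻¹))) *
          (1 + (σB : E₀) ^ N * (1 / (tB : E₀)))⁻¹ :=
      kc_adj_id2 _ _ _ ht0 hh hsum0
    have hv1 : W₁.valuation (1 + (σB : E₀) ^ N * (1 / (tB : E₀))) = 1 :=
      Valuation.map_one_add_of_lt (v := W₁.valuation) (W₁.mem_nonunits_iff.1 (hN₁ N hN1))
    rw [e1, map_mul, map_inv₀, hv1, inv_one, mul_one]
    exact W₁.mem_nonunits_iff.1 (hN₂ N hN2)
  · -- `e h ≡ 1` on `W₂`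
    rw [kcU1_iff]
    have e1 : ((tB : E₀) * h⁻¹ + (σB : E₀) ^ N) / ((tB : E₀) + (σB : E₀) ^ N) * h - 1 =
        ((σB : E₀) ^ N * ((1 - h⁻¹) / ((tB : E₀) * h⁻¹))) *
          (1 + (σB : E₀) ^ N * (1 / (tB : E₀)))⁻¹ :=
      kc_adj_id2 _ _ _ ht0 hh hsum0
    have hv1 : W₂.valuation (1 + (σB : E₀) ^ N * (1 / (tB : E₀))) = 1 :=
      Valuation.map_one_add_of_lt (v := W₂.valuation) (W₂.mem_nonunits_iff.1 (hN₃ N hN3))
    rw [e1, map_mul, map_inv₀, hv1, inv_one, mul_one]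
    exact W₂.mem_nonunits_iff.1 (hN₄ N hN4)

end Adjust

end Fermat.Agent.H19.SS2

end
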