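/-
P-SS2 row 897 (SS2-A6 KCABS, owner helper19; architect helper11, findings #471).

`kcAbs : KcAbsStatement` — abstract assembly of steps S3-S5 of #471.

Proof.  `α = (w w')^(q-1)`, `β = w^q / w'`.  By the TORIC relations, at every triple point
`(c20 / c02)^(q²-1) = α`, `(c11 / c02)^(q²-1) = β`.  Choose `g₁ ≡ (α, β, 1)` on
`(V20, V11, V02)` (weak approximation) and put `u₃ = u^(q²-1) g₁^n`.  At every closed point `𝔪`
there is `H ≡ 1` on all three valuations with `u₃ H^n ∈ B_𝔪`: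
* triple point: `H = (Hinv / c02)^(q²-1) / g₁`;
* point on one component `V`: `H = e · Hinv^(q²-1) γ / g₁` (`γ` the constant of `V`), where `e`
  adjusts at the two other components (`kc_adjust`).
Raising to the `q`-th power gives `≡ 1` modulo `q C`, i.e. `LocalPrinc` for `u₄ = u₃^q` in both
charts, and `Fermat.Agent.H45.klssAbs_general` applies.
-/
import Fermat.Agent.H19.SS2.KcChart

set_option autoImplicit false
set_option linter.style.haveILetI false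

noncomputable section

namespace Fermat.Agent.H19.SS2

open Fermat.Agent.H22.KL Fermat.Agent.H45

section Toric

variable {K : Type} [Field K]

/-- The TORIC algebra: from `a b^k = w`, `a^(k+1) = w' b^k` (with `a = c20 / c02`,
`b = c11 / c02`, `k = q - 1`) one gets `a^(k (k+2)) = (w w')^k` and
`b^(k (k+2)) = w^(k+1) / w'`. -/
theorem kc_toric (k : ℕ) (c20 c11 c02 w w' : K) (h11 : c11 ≠ 0)
    (h02 : c02 ≠ 0) (hw' : w' ≠ 0)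
    (T1 : c20 * c11 ^ k = w * c02 ^ (k + 1))
    (T2 : c20 ^ (k + 1) = w' * c11 ^ k * c02) :
    (c20 / c02) ^ (k * (k + 2)) = (w * w') ^ k ∧
      (c11 / c02) ^ (k * (k + 2)) = w ^ (k + 1) / w' := by
  have ha : (c20 / c02) * (c11 / c02) ^ k = w := by
    rw [div_pow, div_mul_div_comm, T1, ← pow_succ']
    field_simp
  have hb : (c20 / c02) ^ (k + 1) = w' * (c11 / c02) ^ k := by
    rw [div_pow, T2, div_pow]
    field_simp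
    ring
  have hb0 : (c11 / c02) ^ k ≠ 0 := pow_ne_zero _ (div_ne_zero h11 h02)
  constructor
  · have h1 : (c20 / c02) ^ (k + 2) * (c11 / c02) ^ k = (w * w') * (c11 / c02) ^ k := by
      calc (c20 / c02) ^ (k + 2) * (c11 / c02) ^ k
          = (c20 / c02) ^ (k + 1) * ((c20 / c02) * (c11 / c02) ^ k) := by ring
        _ = (w * w') * (c11 / c02) ^ k := by rw [ha, hb]; ring
    have h2 : (c20 / c02) ^ (k + 2) = w * w' := mul_right_cancel₀ hb0 h1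
    rw [mul_comm k, pow_mul, h2]
  · have h1 : w' * (c11 / c02) ^ (k * (k + 2)) = w ^ (k + 1) := by
      calc w' * (c11 / c02) ^ (k * (k + 2))
          = (w' * (c11 / c02) ^ k) * ((c11 / c02) ^ k) ^ (k + 1) := by ring
        _ = (c20 / c02) ^ (k + 1) * ((c11 / c02) ^ k) ^ (k + 1) := by rw [hb]
        _ = ((c20 / c02) * (c11 / c02) ^ k) ^ (k + 1) := by rw [mul_pow]
        _ = w ^ (k + 1) := by rw [ha]
    rw [eq_div_iff hw', mul_comm, h1]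

end Toric

section Point

variable {A : Type} [CommRing A] {E₀ : Type} [Field E₀] [Algebra A E₀]

/-- The point datum produced at every closed point: `H ≡ 1` on the three valuations and
`u₃ H^n ∈ B_𝔪`. -/
def KcGood (A : Type) [CommRing A] (E₀ : Type) [Field E₀] [Algebra A E₀] (n : ℕ) (y : E₀)
    (V20 V11 V02 : ValuationSubring E₀) (u₃ : E₀) (𝔪 : Ideal (chartClosure A E₀ y)) : Prop :=
  ∃ H : E₀, KcU1 V20 H ∧ KcU1 V11 H ∧ KcU1 V02 H ∧ KcInLoc A E₀ y 𝔪 (u₃ * H ^ n)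

/-- One valuation: `Hinv ≡ c`, `c = ρ c₀` with `ρ ^ e = γ`, `g₁ ≡ γ` gives
`(Hinv / c₀)^e / g₁ ≡ 1`. -/
theorem kc_three_one {V : ValuationSubring E₀} {n : ℕ} (hn : 0 < n) (e : ℕ)
    {Hinv c c₀ γ g₁ : E₀} (hc : c ^ n = 1) (hc₀ : c₀ ^ n = 1) (hγ : γ ^ n = 1)
    (hH : Hinv - c ∈ V.nonunits) (hg : g₁ - γ ∈ V.nonunits) (hrel : (c / c₀) ^ e = γ) :
    KcU1 V ((Hinv / c₀) ^ e / g₁) := by
  have hc0 : c ≠ 0 := fun h => by rw [h, zero_pow hn.ne'] at hc; exact zero_ne_one hc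
  have hc₀0 : c₀ ≠ 0 := fun h => by rw [h, zero_pow hn.ne'] at hc₀; exact zero_ne_one hc₀
  have hγ0 : γ ≠ 0 := fun h => by rw [h, zero_pow hn.ne'] at hγ; exact zero_ne_one hγ
  have h1 : KcU1 V (Hinv / c) := kcU1_div_of_sub (kc_val_of_pow_eq_one V hn hc) hH
  have h2 : KcU1 V (g₁ / γ) := kcU1_div_of_sub (kc_val_of_pow_eq_one V hn hγ) hg
  have hg0 : g₁ ≠ 0 := fun h => by
    have := h2.ne_zero
    rw [h, zero_div] at this
    exact this rfl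
  have e1 : (Hinv / c₀) ^ e / g₁ = (Hinv / c) ^ e / (g₁ / γ) := by
    have : (Hinv / c₀) ^ e = (Hinv / c) ^ e * (c / c₀) ^ e := by
      rw [← mul_pow]
      congr 1
      field_simp
    rw [this, hrel]
    field_simp
  rw [e1]
  exact (h1.pow e).div h2

/-- The triple point case. -/
theorem kc_good_three (q n : ℕ) (hq : q.Prime) (hn : 0 < n) (y : E₀)
    (𝔪 : Ideal (chartClosure A E₀ y)) [𝔪.IsPrime]
    (V20 V11 V02 : ValuationSubring E₀) (u : E₀) (w w' : A) (hw : w ^ n = 1)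
    (hw' : w' ^ n = 1) (g₁ : E₀)
    (hg20 : g₁ - (algebraMap A E₀ w * algebraMap A E₀ w') ^ (q - 1) ∈ V20.nonunits)
    (hg11 : g₁ - (algebraMap A E₀ w) ^ q / algebraMap A E₀ w' ∈ V11.nonunits)
    (hg02 : g₁ - 1 ∈ V02.nonunits)
    (h : KcThree A E₀ q n y V20 V11 V02 u w w' 𝔪) :
    KcGood A E₀ n y V20 V11 V02 (u ^ (q ^ 2 - 1) * g₁ ^ n) 𝔪 := by
  obtain ⟨Hinv, c20, c11, c02, h20, h11, h02, hH20, hH11, hH02, hloc, T1, T2⟩ := h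
  obtain ⟨k, rfl⟩ : ∃ k, q = k + 1 := ⟨q - 1, by have := hq.pos; omega⟩
  have hexp : (k + 1) ^ 2 - 1 = k * (k + 2) := by
    have : (k + 1) ^ 2 = k * (k + 2) + 1 := by ring
    omega
  rw [Nat.add_sub_cancel] at hg20 T1 T2
  rw [hexp]
  -- images in `E₀`
  have hι : ∀ c : A, c ^ n = 1 → (algebraMap A E₀ c) ^ n = 1 := fun c hc => by
    rw [← map_pow, hc, map_one]
  have hne : ∀ c : E₀, c ^ n = 1 → c ≠ 0 := fun c hc h => by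
    rw [h, zero_pow hn.ne'] at hc; exact zero_ne_one hc
  have T1' : algebraMap A E₀ c20 * algebraMap A E₀ c11 ^ k =
      algebraMap A E₀ w * algebraMap A E₀ c02 ^ (k + 1) := by
    rw [← map_pow, ← map_mul, T1, map_mul, map_pow]
  have T2' : algebraMap A E₀ c20 ^ (k + 1) =
      algebraMap A E₀ w' * algebraMap A E₀ c11 ^ k * algebraMap A E₀ c02 := by
    rw [← map_pow, T2, map_mul, map_mul, map_pow]
  obtain ⟨R20, R11⟩ := kc_toric k _ _ _ _ _ (hne _ (hι _ h11))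
    (hne _ (hι _ h02)) (hne _ (hι _ hw')) T1' T2'
  have hα : ((algebraMap A E₀ w * algebraMap A E₀ w') ^ k) ^ n = 1 := by
    rw [← pow_mul, mul_comm k n, pow_mul, mul_pow, hι _ hw, hι _ hw', one_mul, one_pow]
  have hβ : ((algebraMap A E₀ w) ^ (k + 1) / algebraMap A E₀ w') ^ n = 1 := by
    rw [div_pow, ← pow_mul, mul_comm (k + 1) n, pow_mul, hι _ hw, hι _ hw', one_pow, div_one]
  have hg0 : g₁ ≠ 0 := by
    intro h0
    have h1 : KcU1 V02 g₁ := hg02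
    exact h1.ne_zero h0
  refine ⟨(Hinv / algebraMap A E₀ c02) ^ (k * (k + 2)) / g₁, ?_, ?_, ?_, ?_⟩
  · exact kc_three_one hn _ (hι _ h20) (hι _ h02) hα hH20 hg20 R20
  · exact kc_three_one hn _ (hι _ h11) (hι _ h02) hβ hH11 hg11 R11
  · refine kc_three_one hn _ (hι _ h02) (hι _ h02) (one_pow n) hH02 hg02 ?_
    rw [div_self (hne _ (hι _ h02)), one_pow]
  · refine (hloc.pow (k * (k + 2))).congr ?_
    have hc02 : (algebraMap A E₀ c02) ^ n = 1 := hι _ h02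
    have hc02' : (algebraMap A E₀ c02) ≠ 0 := hne _ hc02
    have hcK : ((algebraMap A E₀ c02) ^ (k * (k + 2))) ^ n = 1 := by
      rw [← pow_mul, mul_comm, pow_mul, hc02, one_pow]
    have e1 : ((Hinv / algebraMap A E₀ c02) ^ (k * (k + 2)) / g₁) ^ n =
        (Hinv ^ n) ^ (k * (k + 2)) / g₁ ^ n := by
      rw [div_pow, div_pow, div_pow, hcK, div_one, ← pow_mul, ← pow_mul, mul_comm]
    rw [e1, mul_pow]
    field_simp

/-- The case of a point on exactly one component. -/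
theorem kc_good_one [IsDomain A] (ϖ : A) (hϖ0 : algebraMap A E₀ ϖ ≠ 0) (e n : ℕ) (hn : 0 < n) {y : E₀}
    (hy : Transcendental A y)
    (hfd : ∃ d : ℕ, Nonempty (Module.Basis (Fin d) (chartField A E₀ y) E₀))
    (𝔪 : Ideal (chartClosure A E₀ y)) [𝔪.IsPrime]
    (hϖ𝔪 : algebraMap A (chartClosure A E₀ y) ϖ ∈ 𝔪)
    (V W₁ W₂ : ValuationSubring E₀)
    (hBV : ∀ z ∈ chartClosure A E₀ y, z ∈ V)
    (hBW₁ : ∀ z ∈ chartClosure A E₀ y, z ∈ W₁)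
    (hBW₂ : ∀ z ∈ chartClosure A E₀ y, z ∈ W₂)
    (hϖV : algebraMap A E₀ ϖ ∈ V.nonunits)
    (harch₁ : ∀ s ∈ W₁.nonunits, ∀ c : E₀, ∃ N₀ : ℕ, ∀ N : ℕ, N₀ ≤ N → s ^ N * c ∈ W₁.nonunits)
    (harch₂ : ∀ s ∈ W₂.nonunits, ∀ c : E₀, ∃ N₀ : ℕ, ∀ N : ℕ, N₀ ≤ N → s ^ N * c ∈ W₂.nonunits)
    (u g₁ γ : E₀) (hγ : γ ^ n = 1) (hg : g₁ - γ ∈ V.nonunits)
    (h : KcOne A E₀ n y V W₁ W₂ u 𝔪) :
    ∃ H : E₀, KcU1 V H ∧ KcU1 W₁ H ∧ KcU1 W₂ H ∧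
      KcInLoc A E₀ y 𝔪 (u ^ e * g₁ ^ n * H ^ n) := by
  obtain ⟨hV, hW₁, hW₂, Hinv, hH, hloc⟩ := h
  have hγ0 : γ ≠ 0 := fun h => by rw [h, zero_pow hn.ne'] at hγ; exact zero_ne_one hγ
  have hH1 : KcU1 V Hinv := hH
  have h2 : KcU1 V (g₁ / γ) := kcU1_div_of_sub (kc_val_of_pow_eq_one V hn hγ) hg
  have hg0 : g₁ ≠ 0 := fun h => by
    have := h2.ne_zero
    rw [h, zero_div] at this
    exact this rfl
  have hh0 : Hinv ^ e * γ / g₁ ≠ 0 :=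
    div_ne_zero (mul_ne_zero (pow_ne_zero _ hH1.ne_zero) hγ0) hg0
  obtain ⟨ε, hεloc, hεV, hεW₁, hεW₂⟩ := kc_adjust ϖ hϖ0 hy hfd 𝔪 hϖ𝔪 V W₁ W₂ hBV hBW₁ hBW₂
    hϖV harch₁ harch₂ hV hW₁ hW₂ (Hinv ^ e * γ / g₁) hh0
  refine ⟨ε * (Hinv ^ e * γ / g₁), ?_, hεW₁, hεW₂, ?_⟩
  · refine hεV.mul ?_
    have e1 : Hinv ^ e * γ / g₁ = Hinv ^ e / (g₁ / γ) := by
      field_simp
    rw [e1]
    exact (hH1.pow e).div h2
  · refine ((hεloc.pow n).mul (hloc.pow e)).congr ?_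
    have e1 : (ε * (Hinv ^ e * γ / g₁)) ^ n = ε ^ n * ((Hinv ^ n) ^ e / g₁ ^ n) := by
      rw [mul_pow, div_pow, mul_pow, hγ, mul_one, ← pow_mul, ← pow_mul, mul_comm e n]
    rw [e1, mul_pow]
    field_simp

end Point

section Main

/-- **SS2-A6 (KCABS)**, row 897. -/
theorem kcAbs : KcAbsStatement := by
  intro A _ _ _ E₀ Ω _ _ _ _ _ _ _ hinj q hq hϖ x hx hfd hΩ n hn hnu ζ hζ V20 V11 V02 hC
    hV20 hV11 hV02 happ u hu20 hu11 hu02 w w' hw hw' hlocf hloci hroot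
  have hxinv : Transcendental A x⁻¹ := fun h => hx (IsAlgebraic.inv_iff.mp h)
  have hfdinv : ∃ d : ℕ, Nonempty (Module.Basis (Fin d) (chartField A E₀ x⁻¹) E₀) := by
    rw [Fermat.Agent.H89.klg_chartField_inv]
    exact hfd
  obtain ⟨hBC, -, -⟩ := Fermat.Agent.H89.gaussClosureStatement A E₀ hinj _ hϖ x hx
  obtain ⟨hBCi, -, hCinv⟩ := Fermat.Agent.H89.gaussClosureStatement A E₀ hinj _ hϖ x⁻¹ hxinv
  rw [inv_inv] at hCinv
  -- `hCinv : gaussClosure x = gaussClosure x⁻¹`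
  have hCi : ∀ z : E₀, z ∈ gaussClosure A E₀ ((q : ℕ) : A) x⁻¹ ↔
      z ∈ V20 ∧ z ∈ V11 ∧ z ∈ V02 := by
    intro z
    rw [← hCinv]
    exact hC z
  have hιq : algebraMap A E₀ ((q : ℕ) : A) = (q : E₀) := map_natCast _ q
  have hq0 : (q : E₀) ≠ 0 := Nat.cast_ne_zero.2 hq.ne_zero
  have hϖ0 : algebraMap A E₀ ((q : ℕ) : A) ≠ 0 := by rw [hιq]; exact hq0
  -- the constants
  have hι : ∀ c : A, c ^ n = 1 → (algebraMap A E₀ c) ^ n = 1 := fun c hc => by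
    rw [← map_pow, hc, map_one]
  have hα : ((algebraMap A E₀ w * algebraMap A E₀ w') ^ (q - 1)) ^ n = 1 := by
    rw [← pow_mul, mul_comm (q - 1) n, pow_mul, mul_pow, hι _ hw, hι _ hw', one_mul, one_pow]
  have hβ : ((algebraMap A E₀ w) ^ q / algebraMap A E₀ w') ^ n = 1 := by
    rw [div_pow, ← pow_mul, mul_comm q n, pow_mul, hι _ hw, hι _ hw', one_pow, div_one]
  obtain ⟨g₁, hg20, hg11, hg02⟩ := happ ((algebraMap A E₀ w * algebraMap A E₀ w') ^ (q - 1))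
    ((algebraMap A E₀ w) ^ q / algebraMap A E₀ w') 1
  have hg0 : g₁ ≠ 0 := by
    intro h0
    have h1 : KcU1 V02 g₁ := hg02
    exact h1.ne_zero h0
  -- `g₁ ^ n ≡ 1`
  have hgn : ∀ (V : ValuationSubring E₀) (γ : E₀), γ ^ n = 1 → g₁ - γ ∈ V.nonunits →
      KcU1 V (g₁ ^ n) := by
    intro V γ hγ hg
    have h2 : KcU1 V (g₁ / γ) := kcU1_div_of_sub (kc_val_of_pow_eq_one V hn hγ) hg
    have e1 : g₁ ^ n = (g₁ / γ) ^ n := by rw [div_pow, hγ, div_one]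
    rw [e1]
    exact h2.pow n
  obtain ⟨u₃, hu₃⟩ : ∃ u₃ : E₀, u₃ = u ^ (q ^ 2 - 1) * g₁ ^ n := ⟨_, rfl⟩
  have hu₃20 : KcU1 V20 u₃ := by
    rw [hu₃]; exact (KcU1.pow hu20 _).mul (hgn V20 _ hα hg20)
  have hu₃11 : KcU1 V11 u₃ := by
    rw [hu₃]; exact (KcU1.pow hu11 _).mul (hgn V11 _ hβ hg11)
  have hu₃02 : KcU1 V02 u₃ := by
    rw [hu₃]; exact (KcU1.pow hu02 _).mul (hgn V02 _ (one_pow n) hg02)
  -- the good point data in a chart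
  have hgood : ∀ (y : E₀), Transcendental A y →
      (∃ d : ℕ, Nonempty (Module.Basis (Fin d) (chartField A E₀ y) E₀)) →
      (∀ z : E₀, z ∈ gaussClosure A E₀ ((q : ℕ) : A) y ↔ z ∈ V20 ∧ z ∈ V11 ∧ z ∈ V02) →
      (∀ z ∈ chartClosure A E₀ y, z ∈ gaussClosure A E₀ ((q : ℕ) : A) y) →
      ∀ 𝔪 : Ideal (chartClosure A E₀ y), 𝔪.IsMaximal →
        algebraMap A (chartClosure A E₀ y) ((q : ℕ) : A) ∈ 𝔪 →
        KcLoc A E₀ q n y V20 V11 V02 u w w' 𝔪 → KcGood A E₀ n y V20 V11 V02 u₃ 𝔪 := by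
    intro y hy hfdy hCy hBCy 𝔪 h𝔪 hϖ𝔪 hloc
    haveI : 𝔪.IsPrime := h𝔪.isPrime
    have hB20 : ∀ z ∈ chartClosure A E₀ y, z ∈ V20 := fun z hz => ((hCy z).1 (hBCy z hz)).1
    have hB11 : ∀ z ∈ chartClosure A E₀ y, z ∈ V11 := fun z hz => ((hCy z).1 (hBCy z hz)).2.1
    have hB02 : ∀ z ∈ chartClosure A E₀ y, z ∈ V02 := fun z hz => ((hCy z).1 (hBCy z hz)).2.2
    have hϖV : ∀ V : ValuationSubring E₀, KcVert q V →
        algebraMap A E₀ ((q : ℕ) : A) ∈ V.nonunits := fun V hV => by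
      rw [hιq]; exact hV.q_mem
    rw [hu₃]
    rcases hloc with h3 | h1 | h1 | h1
    · exact kc_good_three q n hq hn y 𝔪 V20 V11 V02 u w w' hw hw' g₁ hg20 hg11 hg02 h3
    · obtain ⟨H, hV, hW₁, hW₂, hl⟩ := kc_good_one _ hϖ0 (q ^ 2 - 1) n hn hy hfdy 𝔪 hϖ𝔪
        V20 V11 V02 hB20 hB11 hB02 (hϖV _ hV20) hV11.arch hV02.arch u g₁ _ hα hg20 h1
      exact ⟨H, hV, hW₁, hW₂, hl⟩
    · obtain ⟨H, hV, hW₁, hW₂, hl⟩ := kc_good_one _ hϖ0 (q ^ 2 - 1) n hn hy hfdy 𝔪 hϖ𝔪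
        V11 V20 V02 hB11 hB20 hB02 (hϖV _ hV11) hV20.arch hV02.arch u g₁ _ hβ hg11 h1
      exact ⟨H, hW₁, hV, hW₂, hl⟩
    · obtain ⟨H, hV, hW₁, hW₂, hl⟩ := kc_good_one _ hϖ0 (q ^ 2 - 1) n hn hy hfdy 𝔪 hϖ𝔪
        V02 V20 V11 hB02 hB20 hB11 (hϖV _ hV02) hV20.arch hV11.arch u g₁ _ (one_pow n) hg02 h1
      exact ⟨H, hW₁, hW₂, hV, hl⟩
  -- `z ≡ 1` on the three valuations gives `z ^ q ∈ C` and `z ^ q ≡ 1` modulo `q C`
  have hpowq : ∀ z : E₀, KcU1 V20 z → KcU1 V11 z → KcU1 V02 z →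
      z ^ q ∈ gaussClosure A E₀ ((q : ℕ) : A) x ∧
        PiDvdSet A E₀ ((q : ℕ) : A) (gaussClosure A E₀ ((q : ℕ) : A) x) (z ^ q - 1) := by
    intro z h20 h11 h02
    refine ⟨(hC _).2 ⟨h20.pow_mem q, h11.pow_mem q, h02.pow_mem q⟩,
      (z ^ q - 1) / (q : E₀), (hC _).2 ⟨kcU1_pow_q hq hV20 h20, kcU1_pow_q hq hV11 h11,
        kcU1_pow_q hq hV02 h02⟩, ?_⟩
    rw [hιq, mul_div_cancel₀ _ hq0]
  -- local principalisation of `u₄ = u₃ ^ q` in a chart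
  have hLP : ∀ (y : E₀), gaussClosure A E₀ ((q : ℕ) : A) y = gaussClosure A E₀ ((q : ℕ) : A) x →
      (∀ 𝔪 : Ideal (chartClosure A E₀ y), 𝔪.IsMaximal →
        algebraMap A (chartClosure A E₀ y) ((q : ℕ) : A) ∈ 𝔪 →
        KcGood A E₀ n y V20 V11 V02 u₃ 𝔪) →
      LocalPrinc A E₀ ((q : ℕ) : A) y n (u₃ ^ q) := by
    intro y hCy hg 𝔪 h𝔪 hϖ𝔪
    haveI : 𝔪.IsPrime := h𝔪.isPrime
    obtain ⟨H, h20, h11, h02, hl⟩ := hg 𝔪 h𝔪 hϖ𝔪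
    obtain ⟨hHC, hH1⟩ := hpowq H h20 h11 h02
    refine ⟨H ^ q, ?_, ?_, ?_⟩
    · rw [hCy]; exact hHC
    · rw [hCy]; exact hH1
    · have := hl.pow q
      obtain ⟨b, hb, hbz⟩ := this
      refine ⟨b, hb, ?_⟩
      have e1 : u₃ ^ q * (H ^ q) ^ n = (u₃ * H ^ n) ^ q := by
        rw [mul_pow, ← pow_mul, ← pow_mul, mul_comm q n]
      rw [e1]
      exact hbz
  have hLf : LocalPrinc A E₀ ((q : ℕ) : A) x n (u₃ ^ q) :=
    hLP x rfl fun 𝔪 h𝔪 hϖ𝔪 => hgood x hx hfd hC hBC 𝔪 h𝔪 hϖ𝔪 (hlocf 𝔪 h𝔪 hϖ𝔪)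
  have hLi : LocalPrinc A E₀ ((q : ℕ) : A) x⁻¹ n (u₃ ^ q) :=
    hLP x⁻¹ hCinv.symm fun 𝔪 h𝔪 hϖ𝔪 =>
      hgood x⁻¹ hxinv hfdinv hCi hBCi 𝔪 h𝔪 hϖ𝔪 (hloci 𝔪 h𝔪 hϖ𝔪)
  obtain ⟨hu₄C, hu₄1⟩ := hpowq u₃ hu₃20 hu₃11 hu₃02
  -- the `n`-th root in `Ω`
  have hu₄ : u₃ ^ q = u ^ (q * (q ^ 2 - 1)) * (g₁ ^ q) ^ n := by
    rw [hu₃, mul_pow, ← pow_mul, ← pow_mul, ← pow_mul, mul_comm (q ^ 2 - 1) q, mul_comm n q]
  have hw₄ : ∃ ω : Ω, ω ^ n = algebraMap E₀ Ω (u₃ ^ q) := by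
    obtain ⟨ω, hω⟩ := hroot
    refine ⟨ω * algebraMap E₀ Ω (g₁ ^ q), ?_⟩
    rw [mul_pow, hω, ← map_pow, ← map_mul, hu₄]
  obtain ⟨w₀, hw₀, -⟩ := klssAbs_general A E₀ Ω hinj _ hϖ x hx hfd hΩ n hn hnu ζ hζ (u₃ ^ q)
    hu₄C hu₄1 hLf hLi hw₄
  refine ⟨w₀ / g₁ ^ q, ?_⟩
  rw [div_pow, hw₀, hu₄, mul_div_assoc, div_self (pow_ne_zero _ (pow_ne_zero _ hg0)), mul_one]

end Main

end Fermat.Agent.H19.SS2

end
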