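/-
P-SS2 row 897 (SS2-A6 KCABS): convenience lemmas producing `KcVert q V` (Mathlib only).

* `kc_arch_of_dvr`       : a discrete valuation subring is archimedean in the sense of `KcVert`.
* `kc_pow_q_of_unif`     : if `Z` generates `𝔪_V` (`y / Z ∈ V` for every non-unit `y`) and
  `Z ^ q / q ∈ V` (i.e. `v(q) ≤ q v(Z)`), then `y ^ q / q ∈ V` for every non-unit `y`.
* `kcVert_of_dvr`        : the resulting `KcVert q V`.
-/
import Fermat.Agent.H19.SS2.KcChart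

set_option autoImplicit false

noncomputable section

namespace Fermat.Agent.H19.SS2

section Vert

variable {K : Type} [Field K]

/-- A discrete valuation subring is archimedean. -/
theorem kc_arch_of_dvr (V : ValuationSubring K) [IsDiscreteValuationRing V] :
    ∀ s ∈ V.nonunits, ∀ c : K, ∃ N₀ : ℕ, ∀ N : ℕ, N₀ ≤ N → s ^ N * c ∈ V.nonunits := by
  intro s hs c
  have hsV : s ∈ V := V.nonunits_le hs
  rcases V.mem_or_inv_mem c with hc | hc
  · refine ⟨1, fun N hN => ?_⟩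
    obtain ⟨M, rfl⟩ : ∃ M, N = M + 1 := ⟨N - 1, by omega⟩
    have e : s ^ (M + 1) * c = s * (s ^ M * c) := by ring
    rw [e]
    exact kc_nonunit_mul_mem hs (V.mul_mem _ _ (V.pow_mem hsV M) hc)
  · by_cases hc0 : c = 0
    · refine ⟨0, fun N _ => ?_⟩
      rw [hc0, mul_zero]
      exact V.nonunits.zero_mem
    obtain ⟨ϖ, hϖ⟩ := IsDiscreteValuationRing.exists_irreducible V
    have hb0 : (⟨c⁻¹, hc⟩ : V) ≠ 0 := by
      intro h
      have := congrArg (fun t : V => (t : K)) h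
      exact inv_ne_zero hc0 this
    obtain ⟨k, υ, hk⟩ := IsDiscreteValuationRing.eq_unit_mul_pow_irreducible hb0 hϖ
    have hkK : c⁻¹ = (υ : V) * (ϖ : K) ^ k := by
      have := congrArg (fun t : V => (t : K)) hk
      simpa using this
    have hsm : (⟨s, hsV⟩ : V) ∈ IsLocalRing.maximalIdeal V :=
      ValuationSubring.coe_mem_nonunits_iff.1 hs
    rw [hϖ.maximalIdeal_eq, Ideal.mem_span_singleton] at hsm
    obtain ⟨s', hs'⟩ := hsm
    have hsK : s = (ϖ : K) * (s' : K) := by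
      have := congrArg (fun t : V => (t : K)) hs'
      simpa using this
    have hϖ0 : (ϖ : K) ≠ 0 := by
      intro h0
      apply hϖ.ne_zero
      exact Subtype.ext h0
    have hυ0 : ((υ : V) : K) ≠ 0 := by
      intro h0
      apply υ.ne_zero
      exact Subtype.ext h0
    have hϖn : (ϖ : K) ∈ V.nonunits :=
      ValuationSubring.coe_mem_nonunits_iff.2 (by
        rw [hϖ.maximalIdeal_eq]; exact Ideal.mem_span_singleton_self ϖ)
    refine ⟨k + 1, fun N hN => ?_⟩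
    obtain ⟨M, rfl⟩ : ∃ M, N = k + 1 + M := ⟨N - (k + 1), by omega⟩
    have h2 : (((υ⁻¹ : Vˣ) : V) : K) * ((υ : V) : K) = 1 := by
      show ((((υ⁻¹ : Vˣ) : V) * (υ : V) : V) : K) = 1
      rw [Units.inv_mul]
      rfl
    have hυinv : (((υ⁻¹ : Vˣ) : V) : K) = (((υ : V) : K))⁻¹ := eq_inv_of_mul_eq_one_left h2
    have hc' : c = (((υ⁻¹ : Vˣ) : V) : K) * ((ϖ : K) ^ k)⁻¹ := by
      rw [← inv_inv c, hkK, mul_inv, ← hυinv]
    have e : s ^ (k + 1 + M) * c =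
        (ϖ : K) * ((ϖ : K) ^ M * (s' : K) ^ (k + 1 + M) * (((υ⁻¹ : Vˣ) : V) : K)) := by
      rw [hc', hsK, mul_pow]
      field_simp
      ring
    rw [e]
    exact kc_nonunit_mul_mem hϖn (V.mul_mem _ _ (V.mul_mem _ _ (V.pow_mem ϖ.2 M)
      (V.pow_mem s'.2 _)) ((υ⁻¹ : Vˣ) : V).2)

/-- `𝔪_V = Z V` (`Z ≠ 0`) and `Z ^ q ∈ q V` give `y ^ q ∈ q V` for every non-unit `y`. -/
theorem kc_pow_q_of_unif (V : ValuationSubring K) (q : ℕ) (Z : K) (hZ0 : Z ≠ 0)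
    (hZ : ∀ y ∈ V.nonunits, y / Z ∈ V) (hZq : Z ^ q / (q : K) ∈ V) :
    ∀ y ∈ V.nonunits, y ^ q / (q : K) ∈ V := by
  intro y hy
  have e : y ^ q / (q : K) = (y / Z) ^ q * (Z ^ q / (q : K)) := by
    rw [div_pow, ← mul_div_assoc, div_mul_cancel₀ _ (pow_ne_zero q hZ0)]
  rw [e]
  exact V.mul_mem _ _ (V.pow_mem (hZ y hy) q) hZq

/-- `KcVert` for a discrete valuation subring with a generator `Z` of `𝔪_V` such that
`Z ^ q ∈ q V` (i.e. `v(q) ≤ q v(Z)`) and `q ∈ 𝔪_V`. -/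
theorem kcVert_of_dvr (V : ValuationSubring K) [IsDiscreteValuationRing V] (q : ℕ)
    (hq : (q : K) ∈ V.nonunits) (Z : K) (hZ0 : Z ≠ 0)
    (hZ : ∀ y ∈ V.nonunits, y / Z ∈ V) (hZq : Z ^ q / (q : K) ∈ V) : KcVert q V :=
  ⟨hq, kc_pow_q_of_unif V q Z hZ0 hZ hZq, kc_arch_of_dvr V⟩

/-- `KcVert` when `q` itself generates `𝔪_V` (`q ≥ 1`, `(q : K) ≠ 0`). -/
theorem kcVert_of_dvr_unif (V : ValuationSubring K) [IsDiscreteValuationRing V] (q : ℕ)
    (hq1 : 0 < q) (hq0 : (q : K) ≠ 0) (hq : (q : K) ∈ V.nonunits)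
    (hZ : ∀ y ∈ V.nonunits, y / (q : K) ∈ V) : KcVert q V := by
  refine kcVert_of_dvr V q hq (q : K) hq0 hZ ?_
  obtain ⟨k, rfl⟩ : ∃ k, q = k + 1 := ⟨q - 1, by omega⟩
  have e : ((k + 1 : ℕ) : K) ^ (k + 1) / ((k + 1 : ℕ) : K) = ((k + 1 : ℕ) : K) ^ k := by
    rw [pow_succ, mul_div_assoc, div_self hq0, mul_one]
  rw [e]
  exact V.pow_mem (V.nonunits_le hq) k

end Vert

end Fermat.Agent.H19.SS2

end
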