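/-
P-SS2 row 897 (SS2-A6 KCABS): ADAPTERS to the common definitions of
`Fermat.Agent.H11.SS2.Defs` (`InLoc`, `IsLocUnit`, `IsVertical`, `Through`, `CongrAt`).

* `kcInLoc_iff`, `kcThrough_iff`, `kcAway_of_not_through` : dictionary.
* `kcVert_of_isVertical` : `IsVertical` + a uniformiser `Z` with `Z ^ q ∈ q V` gives `KcVert`.
* `kcThree_of_congrAt`, `kcOne_of_congrAt` : the local hypotheses from `CongrAt` / `IsLocUnit`.
* `kcAbs_h11` : `kcAbs` with all hypotheses in the common language.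
-/
import Fermat.Agent.H19.SS2.KcAbs
import Fermat.Agent.H19.SS2.KcVert
import Fermat.Agent.H11.SS2.Defs

set_option autoImplicit false

noncomputable section

namespace Fermat.Agent.H19.SS2

open Fermat.Agent.H22.KL Fermat.Agent.H11.SS2

section Dict

variable {A : Type} [CommRing A] {E₀ : Type} [Field E₀] [Algebra A E₀]

theorem kcInLoc_iff (y : E₀) (𝔪 : Ideal (chartClosure A E₀ y)) (z : E₀) :
    KcInLoc A E₀ y 𝔪 z ↔ InLoc A E₀ y 𝔪 z := Iff.rfl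

theorem kcThrough_iff (y : E₀) (𝔪 : Ideal (chartClosure A E₀ y)) (V : ValuationSubring E₀) :
    KcThrough A E₀ y 𝔪 V ↔ Through A E₀ y 𝔪 V := Iff.rfl

theorem kcAway_of_not_through {y : E₀} {𝔪 : Ideal (chartClosure A E₀ y)}
    {W : ValuationSubring E₀} (h : ¬ Through A E₀ y 𝔪 W) : KcAway A E₀ y 𝔪 W := by
  by_contra hne
  apply h
  intro s hs
  by_contra hs𝔪
  exact hne ⟨s, hs, hs𝔪⟩

/-- A vertical valuation (in the sense of helper11) with a uniformiser `Z` such that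
`Z ^ q ∈ q V` satisfies `KcVert`. -/
theorem kcVert_of_isVertical {q : ℕ} {y : E₀} {V : ValuationSubring E₀}
    (hq0 : (q : E₀) ≠ 0) (hV : IsVertical A E₀ ((q : ℕ) : A) y V) (Z : E₀)
    (hZ : IsUniformiser E₀ V Z) (hZq : Z ^ q / (q : E₀) ∈ V) : KcVert q V := by
  obtain ⟨-, hpir, -, hqV⟩ := hV
  have hιq : algebraMap A E₀ ((q : ℕ) : A) = (q : E₀) := map_natCast _ q
  rw [hιq] at hqV
  have : IsPrincipalIdealRing V := hpir
  have : IsDiscreteValuationRing V :=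
    { not_a_field' := by
        intro hbot
        have hmem : (⟨(q : E₀), V.nonunits_le hqV⟩ : V) ∈ IsLocalRing.maximalIdeal V :=
          ValuationSubring.coe_mem_nonunits_iff.1 hqV
        rw [hbot, Ideal.mem_bot] at hmem
        exact hq0 (congrArg (fun t : V => (t : E₀)) hmem) }
  exact kcVert_of_dvr V q hqV Z hZ.1 hZ.2.2 hZq

/-- The same when `q` itself is a uniformiser of `V`. -/
theorem kcVert_of_isVertical_unif {q : ℕ} (hq1 : 0 < q) {y : E₀} {V : ValuationSubring E₀}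
    (hV : IsVertical A E₀ ((q : ℕ) : A) y V) (hZ : IsUniformiser E₀ V (q : E₀)) :
    KcVert q V := by
  refine kcVert_of_isVertical hZ.1 hV (q : E₀) hZ ?_
  obtain ⟨k, rfl⟩ : ∃ k, q = k + 1 := ⟨q - 1, by omega⟩
  have e : ((k + 1 : ℕ) : E₀) ^ (k + 1) / ((k + 1 : ℕ) : E₀) = ((k + 1 : ℕ) : E₀) ^ k := by
    rw [pow_succ, mul_div_assoc, div_self hZ.1, mul_one]
  rw [e]
  exact V.pow_mem (V.nonunits_le hZ.2.1) k

/-- `KcThree` from the common language. -/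
theorem kcThree_of_congrAt {q n : ℕ} {y : E₀} {V20 V11 V02 : ValuationSubring E₀} {u : E₀}
    {w w' : A} {𝔪 : Ideal (chartClosure A E₀ y)} (Hinv : E₀) (c20 c11 c02 : A)
    (h20 : c20 ^ n = 1) (h11 : c11 ^ n = 1) (h02 : c02 ^ n = 1)
    (hH20 : CongrAt E₀ V20 Hinv (algebraMap A E₀ c20))
    (hH11 : CongrAt E₀ V11 Hinv (algebraMap A E₀ c11))
    (hH02 : CongrAt E₀ V02 Hinv (algebraMap A E₀ c02))
    (hloc : InLoc A E₀ y 𝔪 (u * Hinv ^ n))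
    (T1 : c20 * c11 ^ (q - 1) = w * c02 ^ q) (T2 : c20 ^ q = w' * c11 ^ (q - 1) * c02) :
    KcThree A E₀ q n y V20 V11 V02 u w w' 𝔪 :=
  ⟨Hinv, c20, c11, c02, h20, h11, h02, hH20.2, hH11.2, hH02.2, hloc, T1, T2⟩

/-- `KcOne` from the common language. -/
theorem kcOne_of_congrAt {n : ℕ} {y : E₀} {V W₁ W₂ : ValuationSubring E₀} {u : E₀}
    {𝔪 : Ideal (chartClosure A E₀ y)} (hV : Through A E₀ y 𝔪 V)
    (hW₁ : ¬ Through A E₀ y 𝔪 W₁) (hW₂ : ¬ Through A E₀ y 𝔪 W₂) (Hinv : E₀)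
    (hH : CongrAt E₀ V Hinv 1) (hloc : InLoc A E₀ y 𝔪 (u * Hinv ^ n)) :
    KcOne A E₀ n y V W₁ W₂ u 𝔪 :=
  ⟨hV, kcAway_of_not_through hW₁, kcAway_of_not_through hW₂, Hinv, hH.2, hloc⟩

end Dict

/-- The local hypothesis of `kcAbs_h11` at a closed point, in the common language: either all
three valuations carry roots of unity satisfying the TORIC relations, or exactly one of the
three passes through the point and `Hinv ≡ 1` on it. -/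
def KcLocH11 (A : Type) [CommRing A] (E₀ : Type) [Field E₀] [Algebra A E₀] (q n : ℕ) (y : E₀)
    (V20 V11 V02 : ValuationSubring E₀) (u : E₀) (w w' : A)
    (𝔪 : Ideal (chartClosure A E₀ y)) : Prop :=
  ∃ Hinv : E₀, IsLocUnit A E₀ y 𝔪 (u * Hinv ^ n) ∧
    ((∃ c20 c11 c02 : A, c20 ^ n = 1 ∧ c11 ^ n = 1 ∧ c02 ^ n = 1 ∧
        CongrAt E₀ V20 Hinv (algebraMap A E₀ c20) ∧
        CongrAt E₀ V11 Hinv (algebraMap A E₀ c11) ∧
        CongrAt E₀ V02 Hinv (algebraMap A E₀ c02) ∧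
        c20 * c11 ^ (q - 1) = w * c02 ^ q ∧ c20 ^ q = w' * c11 ^ (q - 1) * c02) ∨
      (Through A E₀ y 𝔪 V20 ∧ ¬ Through A E₀ y 𝔪 V11 ∧ ¬ Through A E₀ y 𝔪 V02 ∧
        CongrAt E₀ V20 Hinv 1) ∨
      (Through A E₀ y 𝔪 V11 ∧ ¬ Through A E₀ y 𝔪 V20 ∧ ¬ Through A E₀ y 𝔪 V02 ∧
        CongrAt E₀ V11 Hinv 1) ∨
      (Through A E₀ y 𝔪 V02 ∧ ¬ Through A E₀ y 𝔪 V20 ∧ ¬ Through A E₀ y 𝔪 V11 ∧
        CongrAt E₀ V02 Hinv 1))

theorem kcLoc_of_h11 {A : Type} [CommRing A] {E₀ : Type} [Field E₀] [Algebra A E₀] {q n : ℕ}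
    {y : E₀} {V20 V11 V02 : ValuationSubring E₀} {u : E₀} {w w' : A}
    {𝔪 : Ideal (chartClosure A E₀ y)} (h : KcLocH11 A E₀ q n y V20 V11 V02 u w w' 𝔪) :
    KcLoc A E₀ q n y V20 V11 V02 u w w' 𝔪 := by
  obtain ⟨Hinv, hloc, h3 | h1 | h1 | h1⟩ := h
  · obtain ⟨c20, c11, c02, h20, h11, h02, hH20, hH11, hH02, T1, T2⟩ := h3
    exact Or.inl (kcThree_of_congrAt Hinv c20 c11 c02 h20 h11 h02 hH20 hH11 hH02 hloc.2.1 T1 T2)
  · obtain ⟨hV, hW₁, hW₂, hH⟩ := h1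
    exact Or.inr (Or.inl (kcOne_of_congrAt hV hW₁ hW₂ Hinv hH hloc.2.1))
  · obtain ⟨hV, hW₁, hW₂, hH⟩ := h1
    exact Or.inr (Or.inr (Or.inl (kcOne_of_congrAt hV hW₁ hW₂ Hinv hH hloc.2.1)))
  · obtain ⟨hV, hW₁, hW₂, hH⟩ := h1
    exact Or.inr (Or.inr (Or.inr (kcOne_of_congrAt hV hW₁ hW₂ Hinv hH hloc.2.1)))

/-- **SS2-A6 (KCABS) in the common language of `Fermat.Agent.H11.SS2.Defs`.**
`V20`, `V02` are vertical with uniformiser `q`, `V11` is vertical with a uniformiser `Z` such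
that `Z ^ q ∈ q V11` (e.g. `v11(q) = q - 1`). -/
theorem kcAbs_h11
    (A : Type) [CommRing A] [IsDomain A] [IsDiscreteValuationRing A]
    (E₀ Ω : Type) [Field E₀] [Field Ω] [Algebra A E₀] [Algebra A Ω] [Algebra E₀ Ω]
    [IsScalarTower A E₀ Ω] [CharZero E₀]
    (hinj : Function.Injective (algebraMap A E₀))
    (q : ℕ) (hq : q.Prime) (hϖ : Irreducible ((q : ℕ) : A))
    (x : E₀) (hx : Transcendental A x)
    (hfd : ∃ d : ℕ, Nonempty (Module.Basis (Fin d) (chartField A E₀ x) E₀))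
    (hΩ : ∀ z : Ω, IsIntegral A z → z ∈ (algebraMap A Ω).range)
    (n : ℕ) (hn : 0 < n) (hnu : IsUnit ((n : ℕ) : A)) (ζ : A) (hζ : IsPrimitiveRoot ζ n)
    (V20 V11 V02 : ValuationSubring E₀)
    (hC : ∀ z : E₀, z ∈ gaussClosure A E₀ ((q : ℕ) : A) x ↔ z ∈ V20 ∧ z ∈ V11 ∧ z ∈ V02)
    (hV20 : IsVertical A E₀ ((q : ℕ) : A) x V20) (hU20 : IsUniformiser E₀ V20 (q : E₀))
    (hV11 : IsVertical A E₀ ((q : ℕ) : A) x V11) (Z : E₀) (hZ : IsUniformiser E₀ V11 Z)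
    (hZq : Z ^ q / (q : E₀) ∈ V11)
    (hV02 : IsVertical A E₀ ((q : ℕ) : A) x V02) (hU02 : IsUniformiser E₀ V02 (q : E₀))
    (happ : ∀ a b c : E₀, ∃ g : E₀,
      g - a ∈ V20.nonunits ∧ g - b ∈ V11.nonunits ∧ g - c ∈ V02.nonunits)
    (u : E₀) (hu20 : CongrAt E₀ V20 u 1) (hu11 : CongrAt E₀ V11 u 1)
    (hu02 : CongrAt E₀ V02 u 1)
    (w w' : A) (hw : w ^ n = 1) (hw' : w' ^ n = 1)
    (hlocf : ∀ 𝔪 : Ideal (chartClosure A E₀ x), 𝔪.IsMaximal →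
      algebraMap A (chartClosure A E₀ x) ((q : ℕ) : A) ∈ 𝔪 →
      KcLocH11 A E₀ q n x V20 V11 V02 u w w' 𝔪)
    (hloci : ∀ 𝔪 : Ideal (chartClosure A E₀ x⁻¹), 𝔪.IsMaximal →
      algebraMap A (chartClosure A E₀ x⁻¹) ((q : ℕ) : A) ∈ 𝔪 →
      KcLocH11 A E₀ q n x⁻¹ V20 V11 V02 u w w' 𝔪)
    (hroot : ∃ ω : Ω, ω ^ n = algebraMap E₀ Ω (u ^ (q * (q ^ 2 - 1)))) :
    ∃ w₀ : E₀, w₀ ^ n = u ^ (q * (q ^ 2 - 1)) := by
  have hq0 : (q : E₀) ≠ 0 := Nat.cast_ne_zero.2 hq.ne_zero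
  exact kcAbs A E₀ Ω hinj q hq hϖ x hx hfd hΩ n hn hnu ζ hζ V20 V11 V02 hC
    (kcVert_of_isVertical_unif hq.pos hV20 hU20) (kcVert_of_isVertical hq0 hV11 Z hZ hZq)
    (kcVert_of_isVertical_unif hq.pos hV02 hU02) happ u hu20.2 hu11.2 hu02.2 w w' hw hw'
    (fun 𝔪 h𝔪 hϖ𝔪 => kcLoc_of_h11 (hlocf 𝔪 h𝔪 hϖ𝔪))
    (fun 𝔪 h𝔪 hϖ𝔪 => kcLoc_of_h11 (hloci 𝔪 h𝔪 hϖ𝔪)) hroot

end Fermat.Agent.H19.SS2

end
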