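/-
P-SS2 row 1058 (SS2-A11 ASM-CORE, owner helper19), part 1: `kcAbs` with the root in `Ω` replaced
by a LOCAL hypothesis at one closed point (the cusp).

* `kc_localPrinc` : the local principalisation produced inside `kcAbs` (no `Ω`):
  `u₄ = (u ^ (q² - 1) g₁ ^ n) ^ q` lies in `C`, is `≡ 1` modulo `q C` and satisfies `LocalPrinc`
  in both charts.
* `kcAbsCusp` : if at ONE closed point `𝔪c` (of the chart `x` or `x⁻¹`) every local unit `ε`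
  which is `≡ 1` on a vertical valuation through `𝔪c` is `c⁻¹ ωⁿ` in `Ω` with a constant
  `c ∈ 1 + q A`, then `c u ^ (q (q² - 1))` is an `n`-th power in `E₀` for some `c ∈ 1 + q A`.
  (No hypothesis on leading coefficients; `c` is a unit of `A`.)
-/
import Fermat.Agent.H19.SS2.KcAbsH11

set_option autoImplicit false
set_option linter.style.haveILetI false

noncomputable section

namespace Fermat.Agent.H19.SS2

open Fermat.Agent.H22.KL Fermat.Agent.H45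

/-- The local principalisation produced by the hypotheses of `kcAbs`. -/
theorem kc_localPrinc
    (A : Type) [CommRing A] [IsDomain A] [IsDiscreteValuationRing A]
    (E₀ : Type) [Field E₀] [Algebra A E₀] [CharZero E₀]
    (hinj : Function.Injective (algebraMap A E₀))
    (q : ℕ) (hq : q.Prime) (hϖ : Irreducible ((q : ℕ) : A))
    (x : E₀) (hx : Transcendental A x)
    (hfd : ∃ d : ℕ, Nonempty (Module.Basis (Fin d) (chartField A E₀ x) E₀))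
    (n : ℕ) (hn : 0 < n)
    (V20 V11 V02 : ValuationSubring E₀)
    (hC : ∀ z : E₀, z ∈ gaussClosure A E₀ ((q : ℕ) : A) x ↔ z ∈ V20 ∧ z ∈ V11 ∧ z ∈ V02)
    (hV20 : KcVert q V20) (hV11 : KcVert q V11) (hV02 : KcVert q V02)
    (happ : ∀ a b c : E₀, ∃ g : E₀,
      g - a ∈ V20.nonunits ∧ g - b ∈ V11.nonunits ∧ g - c ∈ V02.nonunits)
    (u : E₀) (hu20 : u - 1 ∈ V20.nonunits) (hu11 : u - 1 ∈ V11.nonunits)
    (hu02 : u - 1 ∈ V02.nonunits)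
    (w w' : A) (hw : w ^ n = 1) (hw' : w' ^ n = 1)
    (hlocf : ∀ 𝔪 : Ideal (chartClosure A E₀ x), 𝔪.IsMaximal →
      algebraMap A (chartClosure A E₀ x) ((q : ℕ) : A) ∈ 𝔪 →
      KcLoc A E₀ q n x V20 V11 V02 u w w' 𝔪)
    (hloci : ∀ 𝔪 : Ideal (chartClosure A E₀ x⁻¹), 𝔪.IsMaximal →
      algebraMap A (chartClosure A E₀ x⁻¹) ((q : ℕ) : A) ∈ 𝔪 →
      KcLoc A E₀ q n x⁻¹ V20 V11 V02 u w w' 𝔪) :
    ∃ g₁ : E₀, g₁ ≠ 0 ∧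
      (u ^ (q ^ 2 - 1) * g₁ ^ n) ^ q ∈ gaussClosure A E₀ ((q : ℕ) : A) x ∧
      PiDvdSet A E₀ ((q : ℕ) : A) (gaussClosure A E₀ ((q : ℕ) : A) x)
        ((u ^ (q ^ 2 - 1) * g₁ ^ n) ^ q - 1) ∧
      LocalPrinc A E₀ ((q : ℕ) : A) x n ((u ^ (q ^ 2 - 1) * g₁ ^ n) ^ q) ∧
      LocalPrinc A E₀ ((q : ℕ) : A) x⁻¹ n ((u ^ (q ^ 2 - 1) * g₁ ^ n) ^ q) := by
  have hxinv : Transcendental A x⁻¹ := fun h => hx (IsAlgebraic.inv_iff.mp h)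
  have hfdinv : ∃ d : ℕ, Nonempty (Module.Basis (Fin d) (chartField A E₀ x⁻¹) E₀) := by
    rw [Fermat.Agent.H89.klg_chartField_inv]
    exact hfd
  obtain ⟨hBC, -, -⟩ := Fermat.Agent.H89.gaussClosureStatement A E₀ hinj _ hϖ x hx
  obtain ⟨hBCi, -, hCinv⟩ := Fermat.Agent.H89.gaussClosureStatement A E₀ hinj _ hϖ x⁻¹ hxinv
  rw [inv_inv] at hCinv
  have hCi : ∀ z : E₀, z ∈ gaussClosure A E₀ ((q : ℕ) : A) x⁻¹ ↔
      z ∈ V20 ∧ z ∈ V11 ∧ z ∈ V02 := by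
    intro z
    rw [← hCinv]
    exact hC z
  have hιq : algebraMap A E₀ ((q : ℕ) : A) = (q : E₀) := map_natCast _ q
  have hq0 : (q : E₀) ≠ 0 := Nat.cast_ne_zero.2 hq.ne_zero
  have hϖ0 : algebraMap A E₀ ((q : ℕ) : A) ≠ 0 := by rw [hιq]; exact hq0
  have hι : ∀ c : A, c ^ n = 1 → (algebraMap A E₀ c) ^ n = 1 := fun c hc => by
    rw [← map_pow, hc, map_one]
  have hα : ((algebraMap A E₀ w * algebraMap A E₀ w') ^ (q - 1)) ^ n = 1 := by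
    rw [← pow_mul, mul_comm (q - 1) n, pow_mul, mul_pow, hι _ hw, hι _ hw', one_mul, one_pow]
  have hβ : ((algebraMap A E₀ w) ^ q / algebraMap A E₀ w') ^ n = 1 := by
    rw [div_pow, ← pow_mul, mul_comm q n, pow_mul, hι _ hw, hι _ hw', one_pow, div_one]
  obtain ⟨g₁, hg20, hg11, hg02⟩ := happ ((algebraMap A E₀ w * algebraMap A E₀ w') ^ (q - 1))
    ((algebraMap A E₀ w) ^ q / algebraMap A E₀ w') 1
  have hg0 : g₁ ≠ 0 := by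
    intro h0
    have h1 : KcU1 V02 g₁ := hg02
    exact h1.ne_zero h0
  have hgn : ∀ (V : ValuationSubring E₀) (γ : E₀), γ ^ n = 1 → g₁ - γ ∈ V.nonunits →
      KcU1 V (g₁ ^ n) := by
    intro V γ hγ hg
    have h2 : KcU1 V (g₁ / γ) := kcU1_div_of_sub (kc_val_of_pow_eq_one V hn hγ) hg
    have e1 : g₁ ^ n = (g₁ / γ) ^ n := by rw [div_pow, hγ, div_one]
    rw [e1]
    exact h2.pow n
  obtain ⟨u₃, hu₃⟩ : ∃ u₃ : E₀, u₃ = u ^ (q ^ 2 - 1) * g₁ ^ n := ⟨_, rfl⟩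
  have hu₃20 : KcU1 V20 u₃ := by
    rw [hu₃]; exact (KcU1.pow hu20 _).mul (hgn V20 _ hα hg20)
  have hu₃11 : KcU1 V11 u₃ := by
    rw [hu₃]; exact (KcU1.pow hu11 _).mul (hgn V11 _ hβ hg11)
  have hu₃02 : KcU1 V02 u₃ := by
    rw [hu₃]; exact (KcU1.pow hu02 _).mul (hgn V02 _ (one_pow n) hg02)
  have hgood : ∀ (y : E₀), Transcendental A y →
      (∃ d : ℕ, Nonempty (Module.Basis (Fin d) (chartField A E₀ y) E₀)) →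
      (∀ z : E₀, z ∈ gaussClosure A E₀ ((q : ℕ) : A) y ↔ z ∈ V20 ∧ z ∈ V11 ∧ z ∈ V02) →
      (∀ z ∈ chartClosure A E₀ y, z ∈ gaussClosure A E₀ ((q : ℕ) : A) y) →
      ∀ 𝔪 : Ideal (chartClosure A E₀ y), 𝔪.IsMaximal →
        algebraMap A (chartClosure A E₀ y) ((q : ℕ) : A) ∈ 𝔪 →
        KcLoc A E₀ q n y V20 V11 V02 u w w' 𝔪 → KcGood A E₀ n y V20 V11 V02 u₃ 𝔪 := by
    intro y hy hfdy hCy hBCy 𝔪 h𝔪 hϖ𝔪 hloc
    haveI : 𝔪.IsPrime := h𝔪.isPrime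
    have hB20 : ∀ z ∈ chartClosure A E₀ y, z ∈ V20 := fun z hz => ((hCy z).1 (hBCy z hz)).1
    have hB11 : ∀ z ∈ chartClosure A E₀ y, z ∈ V11 := fun z hz => ((hCy z).1 (hBCy z hz)).2.1
    have hB02 : ∀ z ∈ chartClosure A E₀ y, z ∈ V02 := fun z hz => ((hCy z).1 (hBCy z hz)).2.2
    have hϖV : ∀ V : ValuationSubring E₀, KcVert q V →
        algebraMap A E₀ ((q : ℕ) : A) ∈ V.nonunits := fun V hV => by
      rw [hιq]; exact hV.q_mem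
    rw [hu₃]
    rcases hloc with h3 | h1 | h1 | h1
    · exact kc_good_three q n hq hn y 𝔪 V20 V11 V02 u w w' hw hw' g₁ hg20 hg11 hg02 h3
    · obtain ⟨H, hV, hW₁, hW₂, hl⟩ := kc_good_one _ hϖ0 (q ^ 2 - 1) n hn hy hfdy 𝔪 hϖ𝔪
        V20 V11 V02 hB20 hB11 hB02 (hϖV _ hV20) hV11.arch hV02.arch u g₁ _ hα hg20 h1
      exact ⟨H, hV, hW₁, hW₂, hl⟩
    · obtain ⟨H, hV, hW₁, hW₂, hl⟩ := kc_good_one _ hϖ0 (q ^ 2 - 1) n hn hy hfdy 𝔪 hϖ𝔪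
        V11 V20 V02 hB11 hB20 hB02 (hϖV _ hV11) hV20.arch hV02.arch u g₁ _ hβ hg11 h1
      exact ⟨H, hW₁, hV, hW₂, hl⟩
    · obtain ⟨H, hV, hW₁, hW₂, hl⟩ := kc_good_one _ hϖ0 (q ^ 2 - 1) n hn hy hfdy 𝔪 hϖ𝔪
        V02 V20 V11 hB02 hB20 hB11 (hϖV _ hV02) hV20.arch hV11.arch u g₁ _ (one_pow n) hg02 h1
      exact ⟨H, hW₁, hW₂, hV, hl⟩
  have hpowq : ∀ z : E₀, KcU1 V20 z → KcU1 V11 z → KcU1 V02 z →
      z ^ q ∈ gaussClosure A E₀ ((q : ℕ) : A) x ∧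
        PiDvdSet A E₀ ((q : ℕ) : A) (gaussClosure A E₀ ((q : ℕ) : A) x) (z ^ q - 1) := by
    intro z h20 h11 h02
    refine ⟨(hC _).2 ⟨h20.pow_mem q, h11.pow_mem q, h02.pow_mem q⟩,
      (z ^ q - 1) / (q : E₀), (hC _).2 ⟨kcU1_pow_q hq hV20 h20, kcU1_pow_q hq hV11 h11,
        kcU1_pow_q hq hV02 h02⟩, ?_⟩
    rw [hιq, mul_div_cancel₀ _ hq0]
  have hLP : ∀ (y : E₀), gaussClosure A E₀ ((q : ℕ) : A) y = gaussClosure A E₀ ((q : ℕ) : A) x →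
      (∀ 𝔪 : Ideal (chartClosure A E₀ y), 𝔪.IsMaximal →
        algebraMap A (chartClosure A E₀ y) ((q : ℕ) : A) ∈ 𝔪 →
        KcGood A E₀ n y V20 V11 V02 u₃ 𝔪) →
      LocalPrinc A E₀ ((q : ℕ) : A) y n (u₃ ^ q) := by
    intro y hCy hg 𝔪 h𝔪 hϖ𝔪
    haveI : 𝔪.IsPrime := h𝔪.isPrime
    obtain ⟨H, h20, h11, h02, hl⟩ := hg 𝔪 h𝔪 hϖ𝔪
    obtain ⟨hHC, hH1⟩ := hpowq H h20 h11 h02
    refine ⟨H ^ q, ?_, ?_, ?_⟩
    · rw [hCy]; exact hHC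
    · rw [hCy]; exact hH1
    · have := hl.pow q
      obtain ⟨b, hb, hbz⟩ := this
      refine ⟨b, hb, ?_⟩
      have e1 : u₃ ^ q * (H ^ q) ^ n = (u₃ * H ^ n) ^ q := by
        rw [mul_pow, ← pow_mul, ← pow_mul, mul_comm q n]
      rw [e1]
      exact hbz
  have hLf : LocalPrinc A E₀ ((q : ℕ) : A) x n (u₃ ^ q) :=
    hLP x rfl fun 𝔪 h𝔪 hϖ𝔪 => hgood x hx hfd hC hBC 𝔪 h𝔪 hϖ𝔪 (hlocf 𝔪 h𝔪 hϖ𝔪)
  have hLi : LocalPrinc A E₀ ((q : ℕ) : A) x⁻¹ n (u₃ ^ q) :=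
    hLP x⁻¹ hCinv.symm fun 𝔪 h𝔪 hϖ𝔪 =>
      hgood x⁻¹ hxinv hfdinv hCi hBCi 𝔪 h𝔪 hϖ𝔪 (hloci 𝔪 h𝔪 hϖ𝔪)
  obtain ⟨hu₄C, hu₄1⟩ := hpowq u₃ hu₃20 hu₃11 hu₃02
  rw [hu₃] at hu₄C hu₄1 hLf hLi
  exact ⟨g₁, hg0, hu₄C, hu₄1, hLf, hLi⟩

section Cusp

variable {A : Type} [CommRing A] {E₀ : Type} [Field E₀] [Algebra A E₀]

/-- An element of `B_𝔪` which is `≡ 1` on a valuation `V ⊇ B` through `𝔪` is a unit of `B_𝔪`. -/
theorem kc_inLoc_inv_of_u1 {y : E₀} {𝔪 : Ideal (chartClosure A E₀ y)} [𝔪.IsPrime]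
    {V : ValuationSubring E₀} (hBV : ∀ z ∈ chartClosure A E₀ y, z ∈ V)
    (hT : KcThrough A E₀ y 𝔪 V) {ε : E₀} (hε : KcInLoc A E₀ y 𝔪 ε) (hε1 : KcU1 V ε) :
    KcInLoc A E₀ y 𝔪 ε⁻¹ := by
  obtain ⟨b, hb, hbz⟩ := hε
  have hr : (⟨(b : E₀) * ε, hbz⟩ : chartClosure A E₀ y) ∉ 𝔪 := by
    intro hr
    apply hb
    have h1 : ((⟨(b : E₀) * ε, hbz⟩ - b : chartClosure A E₀ y) : E₀) ∈ V.nonunits := by
      have e : ((⟨(b : E₀) * ε, hbz⟩ - b : chartClosure A E₀ y) : E₀) = (b : E₀) * (ε - 1) := by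
        rw [Subalgebra.coe_sub]
        show (b : E₀) * ε - (b : E₀) = _
        ring
      rw [e]
      exact kc_mul_nonunit_mem (hBV _ b.2) hε1
    have h2 := hT _ h1
    have h3 : b = ⟨(b : E₀) * ε, hbz⟩ - (⟨(b : E₀) * ε, hbz⟩ - b) := by ring
    rw [h3]
    exact 𝔪.sub_mem hr h2
  refine ⟨⟨(b : E₀) * ε, hbz⟩, hr, ?_⟩
  show (b : E₀) * ε * ε⁻¹ ∈ chartClosure A E₀ y
  rw [mul_assoc, mul_inv_cancel₀ hε1.ne_zero, mul_one]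
  exact b.2

end Cusp

/-- **KCABS with the root in `Ω` replaced by a local hypothesis at one closed point.** -/
theorem kcAbsCusp
    (A : Type) [CommRing A] [IsDomain A] [IsDiscreteValuationRing A]
    (E₀ Ω : Type) [Field E₀] [Field Ω] [Algebra A E₀] [Algebra A Ω] [Algebra E₀ Ω]
    [IsScalarTower A E₀ Ω] [CharZero E₀]
    (hinj : Function.Injective (algebraMap A E₀))
    (q : ℕ) (hq : q.Prime) (hϖ : Irreducible ((q : ℕ) : A))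
    (x : E₀) (hx : Transcendental A x)
    (hfd : ∃ d : ℕ, Nonempty (Module.Basis (Fin d) (chartField A E₀ x) E₀))
    (hΩ : ∀ z : Ω, IsIntegral A z → z ∈ (algebraMap A Ω).range)
    (n : ℕ) (hn : 0 < n) (hnu : IsUnit ((n : ℕ) : A)) (ζ : A) (hζ : IsPrimitiveRoot ζ n)
    (V20 V11 V02 : ValuationSubring E₀)
    (hC : ∀ z : E₀, z ∈ gaussClosure A E₀ ((q : ℕ) : A) x ↔ z ∈ V20 ∧ z ∈ V11 ∧ z ∈ V02)
    (hV20 : KcVert q V20) (hV11 : KcVert q V11) (hV02 : KcVert q V02)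
    (happ : ∀ a b c : E₀, ∃ g : E₀,
      g - a ∈ V20.nonunits ∧ g - b ∈ V11.nonunits ∧ g - c ∈ V02.nonunits)
    (u : E₀) (hu20 : u - 1 ∈ V20.nonunits) (hu11 : u - 1 ∈ V11.nonunits)
    (hu02 : u - 1 ∈ V02.nonunits)
    (w w' : A) (hw : w ^ n = 1) (hw' : w' ^ n = 1)
    (hlocf : ∀ 𝔪 : Ideal (chartClosure A E₀ x), 𝔪.IsMaximal →
      algebraMap A (chartClosure A E₀ x) ((q : ℕ) : A) ∈ 𝔪 →
      KcLoc A E₀ q n x V20 V11 V02 u w w' 𝔪)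
    (hloci : ∀ 𝔪 : Ideal (chartClosure A E₀ x⁻¹), 𝔪.IsMaximal →
      algebraMap A (chartClosure A E₀ x⁻¹) ((q : ℕ) : A) ∈ 𝔪 →
      KcLoc A E₀ q n x⁻¹ V20 V11 V02 u w w' 𝔪)
    (yc : E₀) (hyc : yc = x ∨ yc = x⁻¹)
    (𝔪c : Ideal (chartClosure A E₀ yc)) (h𝔪c : 𝔪c.IsMaximal)
    (hqc : algebraMap A (chartClosure A E₀ yc) ((q : ℕ) : A) ∈ 𝔪c)
    (Vc : ValuationSubring E₀) (hVc : Vc = V20 ∨ Vc = V11 ∨ Vc = V02)
    (hTc : KcThrough A E₀ yc 𝔪c Vc)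
    (hcusp : ∀ ε : E₀, ε ≠ 0 → KcInLoc A E₀ yc 𝔪c ε → KcInLoc A E₀ yc 𝔪c ε⁻¹ →
      ε - 1 ∈ Vc.nonunits →
      ∃ (c d : A) (ω : Ω), c = 1 + ((q : ℕ) : A) * d ∧
        ω ^ n = algebraMap A Ω c * algebraMap E₀ Ω ε) :
    ∃ (c d : A) (w₀ : E₀), c = 1 + ((q : ℕ) : A) * d ∧
      w₀ ^ n = algebraMap A E₀ c * u ^ (q * (q ^ 2 - 1)) := by
  have hxinv : Transcendental A x⁻¹ := fun h => hx (IsAlgebraic.inv_iff.mp h)
  obtain ⟨hBC, -, -⟩ := Fermat.Agent.H89.gaussClosureStatement A E₀ hinj _ hϖ x hx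
  obtain ⟨hBCi, -, hCinv⟩ := Fermat.Agent.H89.gaussClosureStatement A E₀ hinj _ hϖ x⁻¹ hxinv
  rw [inv_inv] at hCinv
  have hιq : algebraMap A E₀ ((q : ℕ) : A) = (q : E₀) := map_natCast _ q
  obtain ⟨g₁, hg0, hu₄C, hu₄1, hLf, hLi⟩ := kc_localPrinc A E₀ hinj q hq hϖ x hx hfd n hn
    V20 V11 V02 hC hV20 hV11 hV02 happ u hu20 hu11 hu02 w w' hw hw' hlocf hloci
  obtain ⟨u₄, hu₄⟩ : ∃ u₄ : E₀, u₄ = (u ^ (q ^ 2 - 1) * g₁ ^ n) ^ q := ⟨_, rfl⟩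
  rw [← hu₄] at hu₄C hu₄1 hLf hLi
  -- the three valuations contain `C`, hence both charts and the constants
  have hCV : ∀ z ∈ gaussClosure A E₀ ((q : ℕ) : A) x, z ∈ Vc := by
    intro z hz
    rcases hVc with rfl | rfl | rfl
    · exact ((hC z).1 hz).1
    · exact ((hC z).1 hz).2.1
    · exact ((hC z).1 hz).2.2
  have hqV : (q : E₀) ∈ Vc.nonunits := by
    rcases hVc with rfl | rfl | rfl
    · exact hV20.q_mem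
    · exact hV11.q_mem
    · exact hV02.q_mem
  have hBV : ∀ z ∈ chartClosure A E₀ yc, z ∈ Vc := by
    intro z hz
    rcases hyc with rfl | rfl
    · exact hCV z (hBC z hz)
    · exact hCV z (hCinv ▸ hBCi z hz)
  have hU1 : ∀ z : E₀, PiDvdSet A E₀ ((q : ℕ) : A) (gaussClosure A E₀ ((q : ℕ) : A) x) (z - 1) →
      KcU1 Vc z := by
    rintro z ⟨c, hc, hzc⟩
    show z - 1 ∈ Vc.nonunits
    rw [hzc, hιq]
    exact kc_nonunit_mul_mem hqV (hCV c hc)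
  -- the local datum at the cusp
  have hLPc : ∃ Hinv : E₀, Hinv ∈ gaussClosure A E₀ ((q : ℕ) : A) x ∧
      PiDvdSet A E₀ ((q : ℕ) : A) (gaussClosure A E₀ ((q : ℕ) : A) x) (Hinv - 1) ∧
      KcInLoc A E₀ yc 𝔪c (u₄ * Hinv ^ n) := by
    rcases hyc with rfl | rfl
    · exact hLf 𝔪c h𝔪c hqc
    · obtain ⟨H, h1, h2, h3⟩ := hLi 𝔪c h𝔪c hqc
      rw [← hCinv] at h1 h2
      exact ⟨H, h1, h2, h3⟩
  obtain ⟨H, hHC, hH1, hloc⟩ := hLPc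
  haveI : 𝔪c.IsPrime := h𝔪c.isPrime
  have hHU : KcU1 Vc H := hU1 H hH1
  have hεU : KcU1 Vc (u₄ * H ^ n) := (hU1 u₄ hu₄1).mul (hHU.pow n)
  obtain ⟨c, d, ω, hcd, hω⟩ := hcusp (u₄ * H ^ n) hεU.ne_zero hloc
    (kc_inLoc_inv_of_u1 hBV hTc hloc hεU) hεU
  -- `c u₄` satisfies the hypotheses of `klssAbs_general`
  have hmemV : ∀ (V : ValuationSubring E₀), (∀ z ∈ gaussClosure A E₀ ((q : ℕ) : A) x, z ∈ V) →
      ∀ a : A, algebraMap A E₀ a ∈ V := fun V hV a =>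
    hV _ (hBC _ (Subalgebra.algebraMap_mem (chartClosure A E₀ x) a))
  have hAC : ∀ a : A, algebraMap A E₀ a ∈ gaussClosure A E₀ ((q : ℕ) : A) x := fun a =>
    hBC _ (Subalgebra.algebraMap_mem (chartClosure A E₀ x) a)
  have hCmul : ∀ a b : E₀, a ∈ gaussClosure A E₀ ((q : ℕ) : A) x →
      b ∈ gaussClosure A E₀ ((q : ℕ) : A) x → a * b ∈ gaussClosure A E₀ ((q : ℕ) : A) x := by
    intro a b ha hb
    obtain ⟨a1, a2, a3⟩ := (hC a).1 ha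
    obtain ⟨b1, b2, b3⟩ := (hC b).1 hb
    exact (hC _).2 ⟨V20.mul_mem _ _ a1 b1, V11.mul_mem _ _ a2 b2, V02.mul_mem _ _ a3 b3⟩
  have hCadd : ∀ a b : E₀, a ∈ gaussClosure A E₀ ((q : ℕ) : A) x →
      b ∈ gaussClosure A E₀ ((q : ℕ) : A) x → a + b ∈ gaussClosure A E₀ ((q : ℕ) : A) x := by
    intro a b ha hb
    obtain ⟨a1, a2, a3⟩ := (hC a).1 ha
    obtain ⟨b1, b2, b3⟩ := (hC b).1 hb
    exact (hC _).2 ⟨V20.add_mem _ _ a1 b1, V11.add_mem _ _ a2 b2, V02.add_mem _ _ a3 b3⟩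
  have hu₅C : algebraMap A E₀ c * u₄ ∈ gaussClosure A E₀ ((q : ℕ) : A) x :=
    hCmul _ _ (hAC c) hu₄C
  have hu₅1 : PiDvdSet A E₀ ((q : ℕ) : A) (gaussClosure A E₀ ((q : ℕ) : A) x)
      (algebraMap A E₀ c * u₄ - 1) := by
    obtain ⟨z, hz, hzu⟩ := hu₄1
    refine ⟨algebraMap A E₀ c * z + algebraMap A E₀ d, hCadd _ _ (hCmul _ _ (hAC c) hz) (hAC d), ?_⟩
    have e1 : u₄ = 1 + algebraMap A E₀ ((q : ℕ) : A) * z := by rw [← hzu]; ring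
    rw [e1, hcd, map_add, map_one, map_mul]
    ring
  have hLP5 : ∀ y : E₀, LocalPrinc A E₀ ((q : ℕ) : A) y n u₄ →
      LocalPrinc A E₀ ((q : ℕ) : A) y n (algebraMap A E₀ c * u₄) := by
    intro y hL 𝔪 h𝔪 hϖ𝔪
    obtain ⟨H', h1, h2, b, hb, hbz⟩ := hL 𝔪 h𝔪 hϖ𝔪
    refine ⟨H', h1, h2, b, hb, ?_⟩
    have e1 : (b : E₀) * (algebraMap A E₀ c * u₄ * H' ^ n) =
        algebraMap A E₀ c * ((b : E₀) * (u₄ * H' ^ n)) := by ring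
    rw [e1]
    exact Subalgebra.mul_mem _ (Subalgebra.algebraMap_mem _ c) hbz
  have hH0 : H ≠ 0 := hHU.ne_zero
  have hw₅ : ∃ ω' : Ω, ω' ^ n = algebraMap E₀ Ω (algebraMap A E₀ c * u₄) := by
    refine ⟨ω / algebraMap E₀ Ω H, ?_⟩
    have hH0' : algebraMap E₀ Ω H ≠ 0 := (map_ne_zero _).2 hH0
    rw [div_pow, hω, map_mul, map_mul, map_pow, ← IsScalarTower.algebraMap_apply A E₀ Ω]
    field_simp
  obtain ⟨w₀, hw₀, -⟩ := klssAbs_general A E₀ Ω hinj _ hϖ x hx hfd hΩ n hn hnu ζ hζ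
    (algebraMap A E₀ c * u₄) hu₅C hu₅1 (hLP5 x hLf) (hLP5 x⁻¹ hLi) hw₅
  refine ⟨c, d, w₀ / g₁ ^ q, hcd, ?_⟩
  have hu₄' : u₄ = u ^ (q * (q ^ 2 - 1)) * (g₁ ^ q) ^ n := by
    rw [hu₄, mul_pow, ← pow_mul, ← pow_mul, ← pow_mul, mul_comm (q ^ 2 - 1) q, mul_comm n q]
  rw [div_pow, hw₀, hu₄', ← mul_assoc, mul_div_assoc,
    div_self (pow_ne_zero _ (pow_ne_zero _ hg0)), mul_one]

end Fermat.Agent.H19.SS2

namespace Fermat.Agent.H19.SS2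

open Fermat.Agent.H22.KL Fermat.Agent.H45 Fermat.Agent.H11.SS2

/-- **KCABS with a local root hypothesis at one closed point, in the common language of
`Fermat.Agent.H11.SS2.Defs`.** -/
theorem kcAbsCusp_h11
    (A : Type) [CommRing A] [IsDomain A] [IsDiscreteValuationRing A]
    (E₀ Ω : Type) [Field E₀] [Field Ω] [Algebra A E₀] [Algebra A Ω] [Algebra E₀ Ω]
    [IsScalarTower A E₀ Ω] [CharZero E₀]
    (hinj : Function.Injective (algebraMap A E₀))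
    (q : ℕ) (hq : q.Prime) (hϖ : Irreducible ((q : ℕ) : A))
    (x : E₀) (hx : Transcendental A x)
    (hfd : ∃ d : ℕ, Nonempty (Module.Basis (Fin d) (chartField A E₀ x) E₀))
    (hΩ : ∀ z : Ω, IsIntegral A z → z ∈ (algebraMap A Ω).range)
    (n : ℕ) (hn : 0 < n) (hnu : IsUnit ((n : ℕ) : A)) (ζ : A) (hζ : IsPrimitiveRoot ζ n)
    (V20 V11 V02 : ValuationSubring E₀)
    (hC : ∀ z : E₀, z ∈ gaussClosure A E₀ ((q : ℕ) : A) x ↔ z ∈ V20 ∧ z ∈ V11 ∧ z ∈ V02)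
    (hV20 : IsVertical A E₀ ((q : ℕ) : A) x V20) (hU20 : IsUniformiser E₀ V20 (q : E₀))
    (hV11 : IsVertical A E₀ ((q : ℕ) : A) x V11) (Z : E₀) (hZ : IsUniformiser E₀ V11 Z)
    (hZq : Z ^ q / (q : E₀) ∈ V11)
    (hV02 : IsVertical A E₀ ((q : ℕ) : A) x V02) (hU02 : IsUniformiser E₀ V02 (q : E₀))
    (happ : ∀ a b c : E₀, ∃ g : E₀,
      g - a ∈ V20.nonunits ∧ g - b ∈ V11.nonunits ∧ g - c ∈ V02.nonunits)
    (u : E₀) (hu20 : CongrAt E₀ V20 u 1) (hu11 : CongrAt E₀ V11 u 1)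
    (hu02 : CongrAt E₀ V02 u 1)
    (w w' : A) (hw : w ^ n = 1) (hw' : w' ^ n = 1)
    (hlocf : ∀ 𝔪 : Ideal (chartClosure A E₀ x), 𝔪.IsMaximal →
      algebraMap A (chartClosure A E₀ x) ((q : ℕ) : A) ∈ 𝔪 →
      KcLocH11 A E₀ q n x V20 V11 V02 u w w' 𝔪)
    (hloci : ∀ 𝔪 : Ideal (chartClosure A E₀ x⁻¹), 𝔪.IsMaximal →
      algebraMap A (chartClosure A E₀ x⁻¹) ((q : ℕ) : A) ∈ 𝔪 →
      KcLocH11 A E₀ q n x⁻¹ V20 V11 V02 u w w' 𝔪)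
    (yc : E₀) (hyc : yc = x ∨ yc = x⁻¹)
    (𝔪c : Ideal (chartClosure A E₀ yc)) (h𝔪c : 𝔪c.IsMaximal)
    (hqc : algebraMap A (chartClosure A E₀ yc) ((q : ℕ) : A) ∈ 𝔪c)
    (Vc : ValuationSubring E₀) (hVc : Vc = V20 ∨ Vc = V11 ∨ Vc = V02)
    (hTc : Through A E₀ yc 𝔪c Vc)
    (hcusp : ∀ ε : E₀, IsLocUnit A E₀ yc 𝔪c ε → CongrAt E₀ Vc ε 1 →
      ∃ (c d : A) (ω : Ω), c = 1 + ((q : ℕ) : A) * d ∧
        ω ^ n = algebraMap A Ω c * algebraMap E₀ Ω ε) :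
    ∃ (c d : A) (w₀ : E₀), c = 1 + ((q : ℕ) : A) * d ∧
      w₀ ^ n = algebraMap A E₀ c * u ^ (q * (q ^ 2 - 1)) := by
  have hq0 : (q : E₀) ≠ 0 := Nat.cast_ne_zero.2 hq.ne_zero
  exact kcAbsCusp A E₀ Ω hinj q hq hϖ x hx hfd hΩ n hn hnu ζ hζ V20 V11 V02 hC
    (kcVert_of_isVertical_unif hq.pos hV20 hU20) (kcVert_of_isVertical hq0 hV11 Z hZ hZq)
    (kcVert_of_isVertical_unif hq.pos hV02 hU02) happ u hu20.2 hu11.2 hu02.2 w w' hw hw'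
    (fun 𝔪 h𝔪 hϖ𝔪 => kcLoc_of_h11 (hlocf 𝔪 h𝔪 hϖ𝔪))
    (fun 𝔪 h𝔪 hϖ𝔪 => kcLoc_of_h11 (hloci 𝔪 h𝔪 hϖ𝔪)) yc hyc 𝔪c h𝔪c hqc Vc hVc hTc
    (fun ε hε0 hε hεi hε1 => hcusp ε ⟨hε0, hε, hεi⟩ ⟨KcU1.mem hε1, hε1⟩)

end Fermat.Agent.H19.SS2

end
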