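/-
P-SS2 row 1058 (SS2-A11 ASM-CORE, owner helper19; architect helper11, consumer helper35 row 905).

DEFINITIONS and the exact STATEMENT of the abstract assembly

  REGFACT (helper60) → LPZ one / three branches (helper47) → TORIC (helper68) → KCABS (helper19)

in the chart language of `Fermat.Agent.H22.KL` / `Fermat.Agent.H11.SS2`.

Setting: `A` a discrete valuation ring with uniformiser the prime number `q`; `F` (level `L`)
and `E₀` (level `L q`) fields, `α β : F →+* E₀` the two degeneracy embeddings; `x ∈ E₀` the chart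
coordinate; `V20, V11, V02` the three vertical valuations of `E₀`, `O₁ = V10`, `O₂ = V01` the two
vertical valuations of `F`.

* `AsmBelow`  : the data needed by TORIC along one embedding `φ` at a triple point `𝔪` of the
  chart `y` of `E₀`: a chart `y'` of `F` with `B(φ y') = B(y)`, a maximal ideal `𝔪'` of `B'(y')`
  through which both `O₁` and `O₂` pass, and `𝔪` is the ONLY maximal ideal of `B(y)` above `𝔪'`.
* `AsmThree`  : a regular triple point (parameters `z₁, z₂`, branches `z₁ = 0`, `z₂ = 0`,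
  `z₁ + z₂ = 0`, in one of the two orders produced by `regss_val3_alpha` / `regss_val3_beta` of
  helper93) with `AsmBelow` along `α` and along `β`.
* `AsmOne`    : a regular point on exactly one component.
* `AsmPt`     : one of the four cases.
* `AsmCoreStatement` : the conclusion `c · u ^ (q (q² - 1))` is an `n`-th power in `E₀` for a
  constant `c ∈ 1 + q A`.
-/
import Fermat.Agent.H19.SS2.KcAbsCusp
import Fermat.Agent.H68.SS2.ToricInterfaces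

set_option autoImplicit false
set_option linter.style.haveILetI false

noncomputable section

namespace Fermat.Agent.H19.SS2

open Fermat.Agent.H22.KL Fermat.Agent.H11.SS2 Fermat.Agent.H68.SS2

section Defs

variable (A : Type) [CommRing A] (F E₀ : Type) [Field F] [Field E₀] [Algebra A F]
  [Algebra A E₀]

/-- **The point below a triple point, along `φ`** (input of TORIC): a chart `y'` of `F` whose
image generates the chart `y` of `E₀` (`B(φ y') = B(y)`; e.g. `φ y' = y`), a maximal ideal `𝔪'`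
of `B'(y')` through which the two vertical valuations `O₁`, `O₂` of `F` pass, such that `𝔪` is
the only maximal ideal of `B(y)` containing `φ(𝔪')`. -/
def AsmBelow (φ : F →+* E₀) (O₁ O₂ : ValuationSubring F) (y : E₀)
    (𝔪 : Ideal (chartClosure A E₀ y)) : Prop :=
  ∃ (y' : F) (𝔪' : Ideal (chartClosure A F y')),
    chartClosure A E₀ (φ y') = chartClosure A E₀ y ∧ 𝔪'.IsMaximal ∧
    (∀ s ∈ chartClosure A F y', s ∈ O₁) ∧ (∀ s ∈ chartClosure A F y', s ∈ O₂) ∧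
    Through A F y' 𝔪' O₁ ∧ Through A F y' 𝔪' O₂ ∧
    ∀ 𝔫 : Ideal (chartClosure A E₀ y), 𝔫.IsMaximal →
      (∀ s : chartClosure A F y', s ∈ 𝔪' →
        ∀ t : chartClosure A E₀ y, (t : E₀) = φ s → t ∈ 𝔫) → 𝔫 = 𝔪

/-- **A regular triple point** `𝔪` of the chart `y`: regular parameters `z₁, z₂` with the three
branches `z₁ = 0`, `z₂ = 0`, `z₁ + z₂ = 0` (the middle one is `V11`; the two orders are the
outputs of `regss_val3_alpha` and `regss_val3_beta`), and the TORIC data along `α` and `β`. -/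
def AsmThree (q : ℕ) (α β : F →+* E₀) (O₁ O₂ : ValuationSubring F)
    (V20 V11 V02 : ValuationSubring E₀) (y : E₀) (𝔪 : Ideal (chartClosure A E₀ y)) : Prop :=
  ((∃ z₁ z₂ : E₀, IsRegPoint A E₀ ((q : ℕ) : A) y 𝔪 V02 z₁ z₂ ∧
      IsRegPoint A E₀ ((q : ℕ) : A) y 𝔪 V11 z₂ z₁ ∧
      IsRegPoint A E₀ ((q : ℕ) : A) y 𝔪 V20 (z₁ + z₂) z₁) ∨
    (∃ z₁ z₂ : E₀, IsRegPoint A E₀ ((q : ℕ) : A) y 𝔪 V20 z₁ z₂ ∧
      IsRegPoint A E₀ ((q : ℕ) : A) y 𝔪 V11 z₂ z₁ ∧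
      IsRegPoint A E₀ ((q : ℕ) : A) y 𝔪 V02 (z₁ + z₂) z₁)) ∧
    AsmBelow A F E₀ α O₁ O₂ y 𝔪 ∧ AsmBelow A F E₀ β O₁ O₂ y 𝔪

end Defs

section DefsOne

variable (A : Type) [CommRing A] (E₀ : Type) [Field E₀] [Algebra A E₀]

/-- **A regular point on exactly one component** `V` (the other two, `W₁` and `W₂`, do not pass
through `𝔪`). -/
def AsmOne (q : ℕ) (V W₁ W₂ : ValuationSubring E₀) (y : E₀)
    (𝔪 : Ideal (chartClosure A E₀ y)) : Prop :=
  ¬ Through A E₀ y 𝔪 W₁ ∧ ¬ Through A E₀ y 𝔪 W₂ ∧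
    ∃ x₁ x₂ : E₀, IsRegPoint A E₀ ((q : ℕ) : A) y 𝔪 V x₁ x₂

end DefsOne

/-- **The hypothesis of ASM-CORE at a closed point `𝔪` of the chart `y`.** -/
def AsmPt (A : Type) [CommRing A] (F E₀ : Type) [Field F] [Field E₀] [Algebra A F]
    [Algebra A E₀] (q : ℕ) (α β : F →+* E₀) (O₁ O₂ : ValuationSubring F)
    (V20 V11 V02 : ValuationSubring E₀) (y : E₀) (𝔪 : Ideal (chartClosure A E₀ y)) : Prop :=
  AsmThree A F E₀ q α β O₁ O₂ V20 V11 V02 y 𝔪 ∨ AsmOne A E₀ q V20 V11 V02 y 𝔪 ∨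
    AsmOne A E₀ q V11 V20 V02 y 𝔪 ∨ AsmOne A E₀ q V02 V20 V11 y 𝔪

/-- **SS2-A11 (ASM-CORE)**: the abstract assembly
REGFACT → LPZ → TORIC → KCABS.  See the module docstring. -/
def AsmCoreStatement : Prop :=
  ∀ (A : Type) [CommRing A] [IsDomain A] [IsDiscreteValuationRing A]
    (F E₀ Ω : Type) [Field F] [Field E₀] [Field Ω] [Algebra A F] [Algebra A E₀] [Algebra A Ω]
    [Algebra E₀ Ω] [IsScalarTower A E₀ Ω] [CharZero E₀],
    Function.Injective (algebraMap A E₀) →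
    ∀ (q : ℕ), q.Prime → Irreducible ((q : ℕ) : A) →
    ∀ (x : E₀), Transcendental A x →
    (∃ d : ℕ, Nonempty (Module.Basis (Fin d) (chartField A E₀ x) E₀)) →
    (∀ z : Ω, IsIntegral A z → z ∈ (algebraMap A Ω).range) →
    ∀ (n : ℕ), 0 < n → IsUnit ((n : ℕ) : A) → ∀ (ζ : A), IsPrimitiveRoot ζ n →
    -- the three vertical valuations of `E₀`
    ∀ (V20 V11 V02 : ValuationSubring E₀),
    (∀ z : E₀, z ∈ gaussClosure A E₀ ((q : ℕ) : A) x ↔ z ∈ V20 ∧ z ∈ V11 ∧ z ∈ V02) →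
    (∀ V' : ValuationSubring E₀, IsVertical A E₀ ((q : ℕ) : A) x V' →
      V' = V20 ∨ V' = V11 ∨ V' = V02) →
    IsVertical A E₀ ((q : ℕ) : A) x V20 → IsUniformiser E₀ V20 (q : E₀) →
    IsVertical A E₀ ((q : ℕ) : A) x V11 →
    ∀ (Z : E₀), IsUniformiser E₀ V11 Z → Z ^ q / (q : E₀) ∈ V11 →
    IsVertical A E₀ ((q : ℕ) : A) x V02 → IsUniformiser E₀ V02 (q : E₀) →
    (∀ a b c : E₀, ∃ g : E₀,
      g - a ∈ V20.nonunits ∧ g - b ∈ V11.nonunits ∧ g - c ∈ V02.nonunits) →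
    -- the lower level and the norm reductions
    ∀ (α β : F →+* E₀),
    (∀ a : A, α (algebraMap A F a) = algebraMap A E₀ a) →
    (∀ a : A, β (algebraMap A F a) = algebraMap A E₀ a) →
    @FiniteDimensional F E₀ _ _ (@Algebra.toModule F E₀ _ _ α.toAlgebra) →
    @FiniteDimensional F E₀ _ _ (@Algebra.toModule F E₀ _ _ β.toAlgebra) →
    ∀ (O₁ O₂ : ValuationSubring F),
    @NormRedConstAt A _ F E₀ _ _ _ _ α.toAlgebra (Fin 2) _ O₁ ![V20, V11] ![1, q - 1] →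
    @NormRedConstAt A _ F E₀ _ _ _ _ α.toAlgebra (Fin 1) _ O₂ ![V02] ![q] →
    @NormRedConstAt A _ F E₀ _ _ _ _ β.toAlgebra (Fin 1) _ O₁ ![V20] ![q] →
    @NormRedConstAt A _ F E₀ _ _ _ _ β.toAlgebra (Fin 2) _ O₂ ![V11, V02] ![q - 1, 1] →
    -- the function `u`
    ∀ (u : E₀), CongrAt E₀ V20 u 1 → CongrAt E₀ V11 u 1 → CongrAt E₀ V02 u 1 →
    (∀ V' : ValuationSubring E₀, IsPlace A E₀ V' → OrdDvd E₀ V' n u) →
    -- its two norms
    ∀ (hα : F) (pα ωα₁₀ ωα₀₁ : A), IsUnit pα →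
    algebraMap A F pα * hα ^ n = @Algebra.norm F E₀ _ _ α.toAlgebra u →
    ωα₁₀ ^ n = 1 → ωα₀₁ ^ n = 1 →
    hα - algebraMap A F ωα₁₀ ∈ O₁.nonunits → hα - algebraMap A F ωα₀₁ ∈ O₂.nonunits →
    ∀ (hβ : F) (pβ ωβ₁₀ ωβ₀₁ : A), IsUnit pβ →
    algebraMap A F pβ * hβ ^ n = @Algebra.norm F E₀ _ _ β.toAlgebra u →
    ωβ₁₀ ^ n = 1 → ωβ₀₁ ^ n = 1 →
    hβ - algebraMap A F ωβ₁₀ ∈ O₁.nonunits → hβ - algebraMap A F ωβ₀₁ ∈ O₂.nonunits →
    -- the closed points of the special fibre: chart `x`, and the points of the chart `x⁻¹`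
    -- at which `x⁻¹` vanishes
    (∀ 𝔪 : Ideal (chartClosure A E₀ x), 𝔪.IsMaximal →
      algebraMap A (chartClosure A E₀ x) ((q : ℕ) : A) ∈ 𝔪 →
      AsmPt A F E₀ q α β O₁ O₂ V20 V11 V02 x 𝔪) →
    (∀ 𝔪 : Ideal (chartClosure A E₀ x⁻¹), 𝔪.IsMaximal →
      algebraMap A (chartClosure A E₀ x⁻¹) ((q : ℕ) : A) ∈ 𝔪 →
      (∃ h : x⁻¹ ∈ chartClosure A E₀ x⁻¹, (⟨x⁻¹, h⟩ : chartClosure A E₀ x⁻¹) ∈ 𝔪) →
      AsmPt A F E₀ q α β O₁ O₂ V20 V11 V02 x⁻¹ 𝔪) →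
    -- the cusp: a local `n`-th root in `Ω` up to a constant of `1 + q A`
    ∀ (yc : E₀), yc = x ∨ yc = x⁻¹ →
    ∀ (𝔪c : Ideal (chartClosure A E₀ yc)), 𝔪c.IsMaximal →
    algebraMap A (chartClosure A E₀ yc) ((q : ℕ) : A) ∈ 𝔪c →
    ∀ (Vc : ValuationSubring E₀), Vc = V20 ∨ Vc = V11 ∨ Vc = V02 →
    Through A E₀ yc 𝔪c Vc →
    (∀ ε : E₀, IsLocUnit A E₀ yc 𝔪c ε → CongrAt E₀ Vc ε 1 →
      ∃ (c d : A) (ω : Ω), c = 1 + ((q : ℕ) : A) * d ∧
        ω ^ n = algebraMap A Ω c * algebraMap E₀ Ω ε) →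
    ∃ (c d : A) (w₀ : E₀), c = 1 + ((q : ℕ) : A) * d ∧
      w₀ ^ n = algebraMap A E₀ c * u ^ (q * (q ^ 2 - 1))

end Fermat.Agent.H19.SS2

end
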