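/-
P-SS2 row 1058 (SS2-A11 ASM-CORE, owner helper19), part 2: change of chart `x⁻¹ → x` at the
points of the chart `x⁻¹` where `x⁻¹` is a unit (on top of helper66's `ctIdeal`).

For a prime `𝔪` of `B(y⁻¹)` with `y⁻¹ ∉ 𝔪` and `𝔪' = ctIdeal y 𝔪` (a prime of `B(y)`):
* `cc_inLoc`   : `B(y)_{𝔪'} ⊆ B(y⁻¹)_𝔪`;
* `cc_isLocUnit` : units of `B(y)_{𝔪'}` are units of `B(y⁻¹)_𝔪`;
* `cc_through_iff` : a valuation subring containing `y` and `y⁻¹` passes through `𝔪'` iff it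
  passes through `𝔪`.
-/
import Fermat.Agent.H66.SS.ChartTransfer
import Fermat.Agent.H11.SS2.Defs

set_option autoImplicit false

noncomputable section

namespace Fermat.Agent.H19.SS2

open Fermat.Agent.H22.KL Fermat.Agent.H11.SS2 Fermat.Agent.H66.CT

variable {A : Type} [CommRing A] {E₀ : Type} [Field E₀] [Algebra A E₀]
variable {y : E₀} {𝔪 : Ideal (chartClosure A E₀ y⁻¹)}

/-- `B(y)_{𝔪'} ⊆ B(y⁻¹)_𝔪`. -/
theorem cc_inLoc (hy : y ≠ 0) {z : E₀} (h : InLoc A E₀ y (ctIdeal y hy 𝔪) z) :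
    InLoc A E₀ y⁻¹ 𝔪 z := by
  obtain ⟨b, hb, hbz⟩ := h
  obtain ⟨j, hj⟩ := Fermat.Agent.H85.klc_overlap hy (b : E₀) b.2
  obtain ⟨k, hk⟩ := Fermat.Agent.H85.klc_overlap hy ((b : E₀) * z) hbz
  have hu := ct_self_mem (A := A) y⁻¹
  have hmem : y⁻¹ ^ (j + k) * (b : E₀) ∈ chartClosure A E₀ y⁻¹ := by
    have e : y⁻¹ ^ (j + k) * (b : E₀) = y⁻¹ ^ k * (y⁻¹ ^ j * (b : E₀)) := by ring
    rw [e]
    exact Subalgebra.mul_mem _ (Subalgebra.pow_mem _ hu k) hj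
  refine ⟨⟨y⁻¹ ^ (j + k) * (b : E₀), hmem⟩, fun hin => hb ?_, ?_⟩
  · rw [mem_ctIdeal]
    exact ⟨j + k, hmem, hin⟩
  · show y⁻¹ ^ (j + k) * (b : E₀) * z ∈ chartClosure A E₀ y⁻¹
    have e : y⁻¹ ^ (j + k) * (b : E₀) * z = y⁻¹ ^ j * (y⁻¹ ^ k * ((b : E₀) * z)) := by ring
    rw [e]
    exact Subalgebra.mul_mem _ (Subalgebra.pow_mem _ hu j) hk

/-- Units of `B(y)_{𝔪'}` are units of `B(y⁻¹)_𝔪`. -/
theorem cc_isLocUnit (hy : y ≠ 0) {z : E₀} (h : IsLocUnit A E₀ y (ctIdeal y hy 𝔪) z) :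
    IsLocUnit A E₀ y⁻¹ 𝔪 z :=
  ⟨h.1, cc_inLoc hy h.2.1, cc_inLoc hy h.2.2⟩

/-- A valuation subring containing `y` and `y⁻¹` passes through `𝔪'` iff it passes through
`𝔪`. -/
theorem cc_through_iff (hy : y ≠ 0) [h𝔪 : 𝔪.IsPrime]
    (hun : y⁻¹ ∉ ctImg (chartClosure A E₀ y⁻¹) 𝔪) (V : ValuationSubring E₀)
    (hyV : y ∈ V) (hyV' : y⁻¹ ∈ V) :
    Through A E₀ y (ctIdeal y hy 𝔪) V ↔ Through A E₀ y⁻¹ 𝔪 V := by
  constructor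
  · intro hc t ht
    obtain ⟨k, hk⟩ := Fermat.Agent.H85.klc_overlap (inv_ne_zero hy) (t : E₀) t.2
    rw [inv_inv] at hk
    have h1 : (⟨y ^ k * (t : E₀), hk⟩ : chartClosure A E₀ y) ∈ ctIdeal y hy 𝔪 :=
      hc ⟨y ^ k * (t : E₀), hk⟩ (ct_mul_mem_nonunits (V.pow_mem hyV k) ht)
    have h2 : y⁻¹ ^ k * (y ^ k * (t : E₀)) = (t : E₀) := by
      rw [← mul_assoc, ← mul_pow, inv_mul_cancel₀ hy, one_pow, one_mul]
    have h3 := ctSet_all hun ((mem_ctIdeal hy _).mp h1) k (by rw [h2]; exact t.2)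
    rw [h2] at h3
    exact (ctImg_coe t).mp h3
  · intro hc s hs
    obtain ⟨k, hk⟩ := Fermat.Agent.H85.klc_overlap hy (s : E₀) s.2
    rw [mem_ctIdeal]
    refine ⟨k, ⟨hk, ?_⟩⟩
    exact hc ⟨y⁻¹ ^ k * (s : E₀), hk⟩ (ct_mul_mem_nonunits (V.pow_mem hyV' k) hs)

end Fermat.Agent.H19.SS2

end
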