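/-
P-SS2 row 1058 (SS2-A11 ASM-CORE, owner helper19): proof of `AsmCoreStatement`.

  REGFACT (`Fermat.Agent.H60.SS2.regFact`) → LPZ (`Fermat.Agent.H47.SS2.lpzOne`, `lpzThree`)
  → TORIC (`Fermat.Agent.H68.SS2.toric`) → KCABS with a local root at the cusp
  (`kcAbsCusp_h11`).

* `asm_toric`        : TORIC with the upper chart given up to equality of the chart rings.
* `asm_kcLoc`        : at a closed point with the datum `AsmPt`, the local hypothesis `KcLocH11`.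
* `asm_kcLoc_inv`    : change of chart for `KcLocH11` at the points of the chart `x⁻¹` where
  `x⁻¹` is a unit.
* `asmCore : AsmCoreStatement`.
-/
import Fermat.Agent.H19.SS2.AsmCoreDefs
import Fermat.Agent.H19.SS2.ChartChange
import Fermat.Agent.H60.SS2.RegFact
import Fermat.Agent.H47.SS2.Lpz
import Fermat.Agent.H68.SS2.Toric

set_option autoImplicit false
set_option linter.style.haveILetI false

noncomputable section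

namespace Fermat.Agent.H19.SS2

open Fermat.Agent.H22.KL Fermat.Agent.H11.SS2 Fermat.Agent.H68.SS2 Fermat.Agent.H66.CT

section Basic

variable {E₀ : Type} [Field E₀]

theorem asm_val_eq_one (V : ValuationSubring E₀) {u : E₀} (h : u - 1 ∈ V.nonunits) :
    V.valuation u = 1 := by
  have h1 : V.valuation (u - 1) < 1 := (ValuationSubring.mem_nonunits_iff V).mp h
  have h2 : V.valuation (1 + (u - 1)) = 1 := Valuation.map_one_add_of_lt _ h1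
  have e : 1 + (u - 1) = u := by ring
  rwa [e] at h2

/-- `u ≡ 1` modulo the maximal ideal of `V`: the order of `u` at `V` is divisible by any `n`. -/
theorem asm_ordDvd_of_sub_one_mem (V : ValuationSubring E₀) (n : ℕ) {u : E₀}
    (h : u - 1 ∈ V.nonunits) : OrdDvd E₀ V n u := by
  have hv := asm_val_eq_one V h
  refine ⟨1, one_ne_zero, ?_, ?_⟩
  · rw [one_pow, mul_one]
    exact (V.valuation_le_one_iff u).mp hv.le
  · rw [one_pow, mul_one]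
    apply (V.valuation_le_one_iff u⁻¹).mp
    rw [map_inv₀, hv, inv_one]

theorem asm_ne_zero_of_sub_one_mem (V : ValuationSubring E₀) {u : E₀}
    (h : u - 1 ∈ V.nonunits) : u ≠ 0 := by
  intro h0
  have hv := asm_val_eq_one V h
  rw [h0, map_zero] at hv
  exact zero_ne_one hv

/-- Two valuation subrings separated by weak approximation are different. -/
theorem asm_ne_of_approx {V W : ValuationSubring E₀} (g : E₀) (hV : g - 0 ∈ V.nonunits)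
    (hW : g - 1 ∈ W.nonunits) : V ≠ W := by
  intro h
  subst h
  rw [sub_zero] at hV
  have h1 : V.valuation g < 1 := (ValuationSubring.mem_nonunits_iff V).mp hV
  have h2 := asm_val_eq_one V hW
  rw [h2] at h1
  exact lt_irrefl _ h1

end Basic

section Toric

variable (A : Type) [CommRing A] [IsDomain A] {F E : Type} [Field F] [Field E]
  [Algebra A F] [Algebra A E]

/-- **TORIC along `φ`** with the upper chart ring given as a subalgebra `S = B(φ y)`. -/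
theorem asm_toric_sub (φ : F →+* E) (hφA : ∀ a, φ (algebraMap A F a) = algebraMap A E a)
    (hfd : @FiniteDimensional F E _ _ (@Algebra.toModule F E _ _ φ.toAlgebra))
    (y : F) (S : Subalgebra A E) (hS : chartClosure A E (φ y) = S)
    (𝔪' : Ideal (chartClosure A F y)) (h𝔪' : 𝔪'.IsMaximal) (𝔪 : Ideal S)
    (honly : ∀ 𝔫 : Ideal S, 𝔫.IsMaximal →
      (∀ s : chartClosure A F y, s ∈ 𝔪' → ∀ t : S, (t : E) = φ s → t ∈ 𝔫) → 𝔫 = 𝔪)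
    (n : ℕ) (hn : 0 < n) (hnu : IsUnit ((n : ℕ) : A))
    (Va' Vb' : ValuationSubring F)
    (hVa : ∀ s ∈ chartClosure A F y, s ∈ Va') (hVb : ∀ s ∈ chartClosure A F y, s ∈ Vb')
    (hTa : Through A F y 𝔪' Va') (hTb : Through A F y 𝔪' Vb')
    (ιa ιb : Type) [Fintype ιa] [Fintype ιb]
    (Wa : ιa → ValuationSubring E) (ea : ιa → ℕ)
    (Wb : ιb → ValuationSubring E) (eb : ιb → ℕ)
    (hNa : @NormRedConstAt A _ F E _ _ _ _ φ.toAlgebra ιa _ Va' Wa ea)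
    (hNb : @NormRedConstAt A _ F E _ _ _ _ φ.toAlgebra ιb _ Vb' Wb eb)
    (Hinv u : E) (ca : ιa → A) (cb : ιb → A)
    (hca : ∀ i, ca i ^ n = 1 ∧ Hinv - algebraMap A E (ca i) ∈ (Wa i).nonunits)
    (hcb : ∀ i, cb i ^ n = 1 ∧ Hinv - algebraMap A E (cb i) ∈ (Wb i).nonunits)
    (hloc : ∃ b : S, b ∉ 𝔪 ∧ (b : E) * (u * Hinv ^ n) ∈ S)
    (h : F) (p wa wb : A) (hp : IsUnit p)
    (hh : algebraMap A F p * h ^ n = @Algebra.norm F E _ _ φ.toAlgebra u)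
    (hwa : wa ^ n = 1) (hwb : wb ^ n = 1)
    (hha : h - algebraMap A F wa ∈ Va'.nonunits) (hhb : h - algebraMap A F wb ∈ Vb'.nonunits) :
    wa * ∏ i, ca i ^ ea i = wb * ∏ i, cb i ^ eb i := by
  subst hS
  letI : Algebra F E := φ.toAlgebra
  haveI : IsScalarTower A F E := IsScalarTower.of_algebraMap_eq (fun a => (hφA a).symm)
  haveI := hfd
  exact toric A F E y (φ y) rfl 𝔪' h𝔪' 𝔪 honly n hn hnu Va' Vb' hVa hVb hTa hTb ιa ιb Wa ea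
    Wb eb hNa hNb Hinv u ca cb hca hcb hloc h p wa wb hp hh hwa hwb hha hhb

/-- **TORIC along `φ`** at a point with the datum `AsmBelow`. -/
theorem asm_toric (φ : F →+* E) (hφA : ∀ a, φ (algebraMap A F a) = algebraMap A E a)
    (hfd : @FiniteDimensional F E _ _ (@Algebra.toModule F E _ _ φ.toAlgebra))
    (O₁ O₂ : ValuationSubring F) (x : E) (𝔪 : Ideal (chartClosure A E x))
    (hbelow : AsmBelow A F E φ O₁ O₂ x 𝔪)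
    (n : ℕ) (hn : 0 < n) (hnu : IsUnit ((n : ℕ) : A))
    (ιa ιb : Type) [Fintype ιa] [Fintype ιb]
    (Wa : ιa → ValuationSubring E) (ea : ιa → ℕ)
    (Wb : ιb → ValuationSubring E) (eb : ιb → ℕ)
    (hNa : @NormRedConstAt A _ F E _ _ _ _ φ.toAlgebra ιa _ O₁ Wa ea)
    (hNb : @NormRedConstAt A _ F E _ _ _ _ φ.toAlgebra ιb _ O₂ Wb eb)
    (Hinv u : E) (ca : ιa → A) (cb : ιb → A)
    (hca : ∀ i, ca i ^ n = 1 ∧ Hinv - algebraMap A E (ca i) ∈ (Wa i).nonunits)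
    (hcb : ∀ i, cb i ^ n = 1 ∧ Hinv - algebraMap A E (cb i) ∈ (Wb i).nonunits)
    (hloc : InLoc A E x 𝔪 (u * Hinv ^ n))
    (h : F) (p wa wb : A) (hp : IsUnit p)
    (hh : algebraMap A F p * h ^ n = @Algebra.norm F E _ _ φ.toAlgebra u)
    (hwa : wa ^ n = 1) (hwb : wb ^ n = 1)
    (hha : h - algebraMap A F wa ∈ O₁.nonunits) (hhb : h - algebraMap A F wb ∈ O₂.nonunits) :
    wa * ∏ i, ca i ^ ea i = wb * ∏ i, cb i ^ eb i := by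
  obtain ⟨y', 𝔪', hch, h𝔪', hB₁, hB₂, hT₁, hT₂, honly⟩ := hbelow
  exact asm_toric_sub A φ hφA hfd y' (chartClosure A E x) hch 𝔪' h𝔪' 𝔪 honly n hn hnu O₁ O₂
    hB₁ hB₂ hT₁ hT₂ ιa ιb Wa ea Wb eb hNa hNb Hinv u ca cb hca hcb hloc h p wa wb hp hh hwa hwb
    hha hhb

/-- `wa X = wb Y` with `wa ^ n = 1` gives `X = (wb wa^(n-1)) Y`. -/
theorem asm_eq_mul_of_root_mul_eq {R : Type} [CommRing R] {n : ℕ} (hn : 0 < n) {wa wb X Y : R}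
    (hwa : wa ^ n = 1) (h : wa * X = wb * Y) : X = wb * wa ^ (n - 1) * Y := by
  have h1 : wa ^ (n - 1) * wa = 1 := by
    rw [← pow_succ, Nat.sub_add_cancel hn, hwa]
  calc X = wa ^ (n - 1) * wa * X := by rw [h1, one_mul]
    _ = wa ^ (n - 1) * (wa * X) := by ring
    _ = wa ^ (n - 1) * (wb * Y) := by rw [h]
    _ = wb * wa ^ (n - 1) * Y := by ring

end Toric

section Point

variable (A : Type) [CommRing A] [IsDomain A] [IsDiscreteValuationRing A]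
  (F E₀ : Type) [Field F] [Field E₀] [Algebra A F] [Algebra A E₀] [CharZero E₀]

/-- **The local hypothesis of KCABS at a closed point with the datum `AsmPt`.** -/
theorem asm_kcLoc
    (hinj : Function.Injective (algebraMap A E₀))
    (q : ℕ) (hq : q.Prime) (hϖ : Irreducible ((q : ℕ) : A))
    (y : E₀) (hy : Transcendental A y)
    (hfd : ∃ d : ℕ, Nonempty (Module.Basis (Fin d) (chartField A E₀ y) E₀))
    (n : ℕ) (hn : 0 < n) (hnu : IsUnit ((n : ℕ) : A)) (ζ : A) (hζ : IsPrimitiveRoot ζ n)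
    (V20 V11 V02 : ValuationSubring E₀)
    (hne1 : V20 ≠ V11) (hne2 : V20 ≠ V02) (hne3 : V11 ≠ V02)
    (hvert : ∀ V' : ValuationSubring E₀, IsVertical A E₀ ((q : ℕ) : A) y V' →
      V' = V20 ∨ V' = V11 ∨ V' = V02)
    (α β : F →+* E₀)
    (hαA : ∀ a : A, α (algebraMap A F a) = algebraMap A E₀ a)
    (hβA : ∀ a : A, β (algebraMap A F a) = algebraMap A E₀ a)
    (hfdα : @FiniteDimensional F E₀ _ _ (@Algebra.toModule F E₀ _ _ α.toAlgebra))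
    (hfdβ : @FiniteDimensional F E₀ _ _ (@Algebra.toModule F E₀ _ _ β.toAlgebra))
    (O₁ O₂ : ValuationSubring F)
    (hNα₁ : @NormRedConstAt A _ F E₀ _ _ _ _ α.toAlgebra (Fin 2) _ O₁ ![V20, V11] ![1, q - 1])
    (hNα₂ : @NormRedConstAt A _ F E₀ _ _ _ _ α.toAlgebra (Fin 1) _ O₂ ![V02] ![q])
    (hNβ₁ : @NormRedConstAt A _ F E₀ _ _ _ _ β.toAlgebra (Fin 1) _ O₁ ![V20] ![q])
    (hNβ₂ : @NormRedConstAt A _ F E₀ _ _ _ _ β.toAlgebra (Fin 2) _ O₂ ![V11, V02] ![q - 1, 1])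
    (u : E₀) (hu20 : CongrAt E₀ V20 u 1) (hu11 : CongrAt E₀ V11 u 1)
    (hu02 : CongrAt E₀ V02 u 1)
    (hord : ∀ V' : ValuationSubring E₀, IsPlace A E₀ V' → OrdDvd E₀ V' n u)
    (hα : F) (pα ωα₁₀ ωα₀₁ : A) (hpα : IsUnit pα)
    (hNα : algebraMap A F pα * hα ^ n = @Algebra.norm F E₀ _ _ α.toAlgebra u)
    (hωα₁₀ : ωα₁₀ ^ n = 1) (hωα₀₁ : ωα₀₁ ^ n = 1)
    (hhα₁ : hα - algebraMap A F ωα₁₀ ∈ O₁.nonunits)
    (hhα₂ : hα - algebraMap A F ωα₀₁ ∈ O₂.nonunits)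
    (hβ : F) (pβ ωβ₁₀ ωβ₀₁ : A) (hpβ : IsUnit pβ)
    (hNβ : algebraMap A F pβ * hβ ^ n = @Algebra.norm F E₀ _ _ β.toAlgebra u)
    (hωβ₁₀ : ωβ₁₀ ^ n = 1) (hωβ₀₁ : ωβ₀₁ ^ n = 1)
    (hhβ₁ : hβ - algebraMap A F ωβ₁₀ ∈ O₁.nonunits)
    (hhβ₂ : hβ - algebraMap A F ωβ₀₁ ∈ O₂.nonunits)
    (𝔪 : Ideal (chartClosure A E₀ y)) (h𝔪 : 𝔪.IsMaximal)
    (hq𝔪 : algebraMap A (chartClosure A E₀ y) ((q : ℕ) : A) ∈ 𝔪)
    (hpt : AsmPt A F E₀ q α β O₁ O₂ V20 V11 V02 y 𝔪) :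
    KcLocH11 A E₀ q n y V20 V11 V02 u (ωα₀₁ * ωα₁₀ ^ (n - 1)) (ωβ₀₁ * ωβ₁₀ ^ (n - 1)) 𝔪 := by
  have hqA : ¬ IsUnit ((q : ℕ) : A) := hϖ.not_isUnit
  have hu0 : u ≠ 0 := asm_ne_zero_of_sub_one_mem V20 hu20.2
  have hordC : ∀ V' : ValuationSubring E₀, Fermat.Agent.H45.CentredAt A E₀ y 𝔪 V' →
      OrdDvd E₀ V' n u := fun V' hV' => hord V' hV'.1.1
  have hordV : ∀ V' : ValuationSubring E₀, IsVertical A E₀ ((q : ℕ) : A) y V' →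
      Through A E₀ y 𝔪 V' → OrdDvd E₀ V' n u := by
    intro V' hV' _
    rcases hvert V' hV' with rfl | rfl | rfl
    · exact asm_ordDvd_of_sub_one_mem _ n hu20.2
    · exact asm_ordDvd_of_sub_one_mem _ n hu11.2
    · exact asm_ordDvd_of_sub_one_mem _ n hu02.2
  have hone : ∀ V W₁ W₂ : ValuationSubring E₀, CongrAt E₀ V u 1 →
      (∀ V' : ValuationSubring E₀, IsVertical A E₀ ((q : ℕ) : A) y V' →
        V' = V ∨ V' = W₁ ∨ V' = W₂) →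
      AsmOne A E₀ q V W₁ W₂ y 𝔪 →
      ∃ Hinv : E₀, IsLocUnit A E₀ y 𝔪 (u * Hinv ^ n) ∧ Through A E₀ y 𝔪 V ∧
        ¬ Through A E₀ y 𝔪 W₁ ∧ ¬ Through A E₀ y 𝔪 W₂ ∧ CongrAt E₀ V Hinv 1 := by
    intro V W₁ W₂ huV hv ⟨hW₁, hW₂, x₁, x₂, hreg⟩
    obtain ⟨p, hp0, hp⟩ := Fermat.Agent.H60.SS2.regFact A E₀ hinj _ hϖ y hy hfd 𝔪 h𝔪 hq𝔪 V
      x₁ x₂ hreg n hn u hu0 hordC hordV
    have honly : ∀ V' : ValuationSubring E₀, IsVertical A E₀ ((q : ℕ) : A) y V' →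
        Through A E₀ y 𝔪 V' → V' = V := by
      intro V' hV' hT
      rcases hv V' hV' with rfl | rfl | rfl
      · rfl
      · exact absurd hT hW₁
      · exact absurd hT hW₂
    obtain ⟨Hinv, hH1, hH2⟩ := Fermat.Agent.H47.SS2.lpzOne A E₀ hinj _ hϖ y hy hfd 𝔪 h𝔪 hq𝔪
      V x₁ x₂ hreg honly n hn u p huV hp0 hp
    exact ⟨Hinv, hH1, hreg.thru, hW₁, hW₂, hH2⟩
  rcases hpt with h3 | h1 | h1 | h1
  · -- a triple point
    obtain ⟨hreg, hbα, hbβ⟩ := h3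
    have key : ∃ (Hinv : E₀) (c20 c11 c02 : A), c20 ^ n = 1 ∧ c11 ^ n = 1 ∧ c02 ^ n = 1 ∧
        IsLocUnit A E₀ y 𝔪 (u * Hinv ^ n) ∧ CongrAt E₀ V20 Hinv (algebraMap A E₀ c20) ∧
        CongrAt E₀ V11 Hinv (algebraMap A E₀ c11) ∧
        CongrAt E₀ V02 Hinv (algebraMap A E₀ c02) := by
      rcases hreg with ⟨z₁, z₂, r02, r11, r20⟩ | ⟨z₁, z₂, r20, r11, r02⟩
      · obtain ⟨p, hp0, hp⟩ := Fermat.Agent.H60.SS2.regFact A E₀ hinj _ hϖ y hy hfd 𝔪 h𝔪 hq𝔪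
          V02 z₁ z₂ r02 n hn u hu0 hordC hordV
        obtain ⟨Hinv, c₁, c₂, c₃, h1, h2, h3, hunit, hH1, hH2, hH3⟩ :=
          Fermat.Agent.H47.SS2.lpzThree A E₀ hinj _ hϖ y hy hfd q hq hqA 𝔪 h𝔪 hq𝔪 V02 V11 V20
            z₁ z₂ hne3.symm hne2.symm hne1.symm r02 r11 r20
            (fun V' hV' _ => by
              rcases hvert V' hV' with h | h | h
              · exact Or.inr (Or.inr h)
              · exact Or.inr (Or.inl h)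
              · exact Or.inl h)
            n hn hnu ζ hζ u p hu02 hu11 hu20 hp0 hp
        exact ⟨Hinv, c₃, c₂, c₁, h3, h2, h1, hunit, hH3, hH2, hH1⟩
      · obtain ⟨p, hp0, hp⟩ := Fermat.Agent.H60.SS2.regFact A E₀ hinj _ hϖ y hy hfd 𝔪 h𝔪 hq𝔪
          V20 z₁ z₂ r20 n hn u hu0 hordC hordV
        obtain ⟨Hinv, c₁, c₂, c₃, h1, h2, h3, hunit, hH1, hH2, hH3⟩ :=
          Fermat.Agent.H47.SS2.lpzThree A E₀ hinj _ hϖ y hy hfd q hq hqA 𝔪 h𝔪 hq𝔪 V20 V11 V02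
            z₁ z₂ hne1 hne2 hne3 r20 r11 r02 (fun V' hV' _ => hvert V' hV')
            n hn hnu ζ hζ u p hu20 hu11 hu02 hp0 hp
        exact ⟨Hinv, c₁, c₂, c₃, h1, h2, h3, hunit, hH1, hH2, hH3⟩
    obtain ⟨Hinv, c20, c11, c02, h20, h11, h02, hunit, hH20, hH11, hH02⟩ := key
    have T1 := asm_toric A α hαA hfdα O₁ O₂ y 𝔪 hbα n hn hnu (Fin 2) (Fin 1)
      ![V20, V11] ![1, q - 1] ![V02] ![q] hNα₁ hNα₂ Hinv u ![c20, c11] ![c02]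
      (by intro i; fin_cases i; exacts [⟨h20, hH20.2⟩, ⟨h11, hH11.2⟩])
      (by intro i; fin_cases i; exact ⟨h02, hH02.2⟩)
      hunit.2.1 hα pα ωα₁₀ ωα₀₁ hpα hNα hωα₁₀ hωα₀₁ hhα₁ hhα₂
    have T2 := asm_toric A β hβA hfdβ O₁ O₂ y 𝔪 hbβ n hn hnu (Fin 1) (Fin 2)
      ![V20] ![q] ![V11, V02] ![q - 1, 1] hNβ₁ hNβ₂ Hinv u ![c20] ![c11, c02]
      (by intro i; fin_cases i; exact ⟨h20, hH20.2⟩)
      (by intro i; fin_cases i; exacts [⟨h11, hH11.2⟩, ⟨h02, hH02.2⟩])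
      hunit.2.1 hβ pβ ωβ₁₀ ωβ₀₁ hpβ hNβ hωβ₁₀ hωβ₀₁ hhβ₁ hhβ₂
    have r1 : ωα₁₀ * (c20 * c11 ^ (q - 1)) = ωα₀₁ * c02 ^ q := by
      simpa [Fin.prod_univ_two] using T1
    have r2 : ωβ₁₀ * c20 ^ q = ωβ₀₁ * (c11 ^ (q - 1) * c02) := by
      simpa [Fin.prod_univ_two] using T2
    refine ⟨Hinv, hunit, Or.inl ⟨c20, c11, c02, h20, h11, h02, hH20, hH11, hH02,
      asm_eq_mul_of_root_mul_eq hn hωα₁₀ r1, ?_⟩⟩
    have := asm_eq_mul_of_root_mul_eq hn hωβ₁₀ r2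
    rw [this]
    ring
  · obtain ⟨Hinv, hl, hT, hW₁, hW₂, hH⟩ := hone V20 V11 V02 hu20 hvert h1
    exact ⟨Hinv, hl, Or.inr (Or.inl ⟨hT, hW₁, hW₂, hH⟩)⟩
  · obtain ⟨Hinv, hl, hT, hW₁, hW₂, hH⟩ := hone V11 V20 V02 hu11
      (fun V' hV' => by
        rcases hvert V' hV' with h | h | h
        · exact Or.inr (Or.inl h)
        · exact Or.inl h
        · exact Or.inr (Or.inr h)) h1
    exact ⟨Hinv, hl, Or.inr (Or.inr (Or.inl ⟨hT, hW₁, hW₂, hH⟩))⟩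
  · obtain ⟨Hinv, hl, hT, hW₁, hW₂, hH⟩ := hone V02 V20 V11 hu02
      (fun V' hV' => by
        rcases hvert V' hV' with h | h | h
        · exact Or.inr (Or.inl h)
        · exact Or.inr (Or.inr h)
        · exact Or.inl h) h1
    exact ⟨Hinv, hl, Or.inr (Or.inr (Or.inr ⟨hT, hW₁, hW₂, hH⟩))⟩

end Point

section Chart

variable {A : Type} [CommRing A] {E₀ : Type} [Field E₀] [Algebra A E₀]

/-- **Change of chart for `KcLocH11`** at a point `𝔪` of the chart `x⁻¹` at which `x⁻¹` is a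
unit: the local hypothesis at the corresponding point `ctIdeal x 𝔪` of the chart `x` gives the
local hypothesis at `𝔪`. -/
theorem asm_kcLoc_inv {q n : ℕ} {x : E₀} (hx0 : x ≠ 0)
    {V20 V11 V02 : ValuationSubring E₀}
    (hx20 : x ∈ V20) (hx20' : x⁻¹ ∈ V20) (hx11 : x ∈ V11) (hx11' : x⁻¹ ∈ V11)
    (hx02 : x ∈ V02) (hx02' : x⁻¹ ∈ V02)
    {u : E₀} {w w' : A} {𝔪 : Ideal (chartClosure A E₀ x⁻¹)} [h𝔪 : 𝔪.IsPrime]
    (hun : x⁻¹ ∉ ctImg (chartClosure A E₀ x⁻¹) 𝔪)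
    (h : KcLocH11 A E₀ q n x V20 V11 V02 u w w' (ctIdeal x hx0 𝔪)) :
    KcLocH11 A E₀ q n x⁻¹ V20 V11 V02 u w w' 𝔪 := by
  have i20 := cc_through_iff hx0 hun V20 hx20 hx20'
  have i11 := cc_through_iff hx0 hun V11 hx11 hx11'
  have i02 := cc_through_iff hx0 hun V02 hx02 hx02'
  obtain ⟨Hinv, hloc, h3 | h1 | h1 | h1⟩ := h
  · exact ⟨Hinv, cc_isLocUnit hx0 hloc, Or.inl h3⟩
  · obtain ⟨hV, hW₁, hW₂, hH⟩ := h1
    exact ⟨Hinv, cc_isLocUnit hx0 hloc, Or.inr (Or.inl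
      ⟨i20.1 hV, fun hh => hW₁ (i11.2 hh), fun hh => hW₂ (i02.2 hh), hH⟩)⟩
  · obtain ⟨hV, hW₁, hW₂, hH⟩ := h1
    exact ⟨Hinv, cc_isLocUnit hx0 hloc, Or.inr (Or.inr (Or.inl
      ⟨i11.1 hV, fun hh => hW₁ (i20.2 hh), fun hh => hW₂ (i02.2 hh), hH⟩))⟩
  · obtain ⟨hV, hW₁, hW₂, hH⟩ := h1
    exact ⟨Hinv, cc_isLocUnit hx0 hloc, Or.inr (Or.inr (Or.inr
      ⟨i02.1 hV, fun hh => hW₁ (i20.2 hh), fun hh => hW₂ (i11.2 hh), hH⟩))⟩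

end Chart

/-- **SS2-A11 (ASM-CORE)**: REGFACT → LPZ → TORIC → KCABS. -/
theorem asmCore : AsmCoreStatement := by
  intro A _ _ _ F E₀ Ω _ _ _ _ _ _ _ _ _ hinj q hq hϖ x hx hfd hΩ n hn hnu ζ hζ V20 V11 V02
    hC hvert hV20 hU20 hV11 Z hZ hZq hV02 hU02 happ α β hαA hβA hfdα hfdβ O₁ O₂ hNα₁ hNα₂
    hNβ₁ hNβ₂ u hu20 hu11 hu02 hord hα pα ωα₁₀ ωα₀₁ hpα hNα hωα₁₀ hωα₀₁ hhα₁ hhα₂
    hβ pβ ωβ₁₀ ωβ₀₁ hpβ hNβ hωβ₁₀ hωβ₀₁ hhβ₁ hhβ₂ hptf hpti yc hyc 𝔪c h𝔪c hqc Vc hVc hTc hcusp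
  -- the three valuations are pairwise different
  obtain ⟨g1, hg1a, hg1b, hg1c⟩ := happ 0 1 1
  obtain ⟨g2, -, hg2b, hg2c⟩ := happ 0 0 1
  have hne1 : V20 ≠ V11 := asm_ne_of_approx g1 hg1a hg1b
  have hne2 : V20 ≠ V02 := asm_ne_of_approx g1 hg1a hg1c
  have hne3 : V11 ≠ V02 := asm_ne_of_approx g2 hg2b hg2c
  -- the chart `x⁻¹`
  have hx0 : x ≠ 0 := by
    intro h0
    apply hx
    rw [h0]
    exact isAlgebraic_zero
  have hxinv : Transcendental A x⁻¹ := fun h => hx (IsAlgebraic.inv_iff.mp h)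
  have hfdinv : ∃ d : ℕ, Nonempty (Module.Basis (Fin d) (chartField A E₀ x⁻¹) E₀) := by
    rw [Fermat.Agent.H89.klg_chartField_inv]
    exact hfd
  obtain ⟨hBC, -, -⟩ := Fermat.Agent.H89.gaussClosureStatement A E₀ hinj _ hϖ x hx
  obtain ⟨hBCi, -, hCinv⟩ := Fermat.Agent.H89.gaussClosureStatement A E₀ hinj _ hϖ x⁻¹ hxinv
  rw [inv_inv] at hCinv
  have hverti : ∀ V' : ValuationSubring E₀, IsVertical A E₀ ((q : ℕ) : A) x⁻¹ V' →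
      V' = V20 ∨ V' = V11 ∨ V' = V02 := by
    intro V' hV'
    apply hvert
    refine ⟨hV'.1, hV'.2.1, ?_, hV'.2.2.2⟩
    intro z hz
    apply hV'.2.2.1
    rw [← hCinv]
    exact hz
  have hxC : x ∈ gaussClosure A E₀ ((q : ℕ) : A) x := hBC x (ct_self_mem x)
  have hxiC : x⁻¹ ∈ gaussClosure A E₀ ((q : ℕ) : A) x := by
    rw [hCinv]
    exact hBCi x⁻¹ (ct_self_mem x⁻¹)
  obtain ⟨hx20, hx11, hx02⟩ := (hC x).1 hxC
  obtain ⟨hx20', hx11', hx02'⟩ := (hC x⁻¹).1 hxiC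
  -- the roots of unity `w`, `w'`
  have hroot : ∀ a b : A, a ^ n = 1 → b ^ n = 1 → (a * b ^ (n - 1)) ^ n = 1 := by
    intro a b ha hb
    rw [mul_pow, ha, one_mul, ← pow_mul, mul_comm, pow_mul, hb, one_pow]
  -- the local hypotheses
  have hlocf : ∀ 𝔪 : Ideal (chartClosure A E₀ x), 𝔪.IsMaximal →
      algebraMap A (chartClosure A E₀ x) ((q : ℕ) : A) ∈ 𝔪 →
      KcLocH11 A E₀ q n x V20 V11 V02 u (ωα₀₁ * ωα₁₀ ^ (n - 1)) (ωβ₀₁ * ωβ₁₀ ^ (n - 1)) 𝔪 :=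
    fun 𝔪 h𝔪 hq𝔪 => asm_kcLoc A F E₀ hinj q hq hϖ x hx hfd n hn hnu ζ hζ V20 V11 V02
      hne1 hne2 hne3 hvert α β hαA hβA hfdα hfdβ O₁ O₂ hNα₁ hNα₂ hNβ₁ hNβ₂ u hu20 hu11 hu02
      hord hα pα ωα₁₀ ωα₀₁ hpα hNα hωα₁₀ hωα₀₁ hhα₁ hhα₂ hβ pβ ωβ₁₀ ωβ₀₁ hpβ hNβ hωβ₁₀ hωβ₀₁
      hhβ₁ hhβ₂ 𝔪 h𝔪 hq𝔪 (hptf 𝔪 h𝔪 hq𝔪)
  have hloci : ∀ 𝔪 : Ideal (chartClosure A E₀ x⁻¹), 𝔪.IsMaximal →
      algebraMap A (chartClosure A E₀ x⁻¹) ((q : ℕ) : A) ∈ 𝔪 →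
      KcLocH11 A E₀ q n x⁻¹ V20 V11 V02 u (ωα₀₁ * ωα₁₀ ^ (n - 1))
        (ωβ₀₁ * ωβ₁₀ ^ (n - 1)) 𝔪 := by
    intro 𝔪 h𝔪 hq𝔪
    by_cases hinf : ∃ h : x⁻¹ ∈ chartClosure A E₀ x⁻¹, (⟨x⁻¹, h⟩ : chartClosure A E₀ x⁻¹) ∈ 𝔪
    · exact asm_kcLoc A F E₀ hinj q hq hϖ x⁻¹ hxinv hfdinv n hn hnu ζ hζ V20 V11 V02
        hne1 hne2 hne3 hverti α β hαA hβA hfdα hfdβ O₁ O₂ hNα₁ hNα₂ hNβ₁ hNβ₂ u hu20 hu11 hu02
        hord hα pα ωα₁₀ ωα₀₁ hpα hNα hωα₁₀ hωα₀₁ hhα₁ hhα₂ hβ pβ ωβ₁₀ ωβ₀₁ hpβ hNβ hωβ₁₀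
        hωβ₀₁ hhβ₁ hhβ₂ 𝔪 h𝔪 hq𝔪 (hpti 𝔪 h𝔪 hq𝔪 hinf)
    · haveI : 𝔪.IsPrime := h𝔪.isPrime
      have hun : x⁻¹ ∉ ctImg (chartClosure A E₀ x⁻¹) 𝔪 := hinf
      exact asm_kcLoc_inv hx0 hx20 hx20' hx11 hx11' hx02 hx02' hun
        (hlocf _ (ctIdeal_isMaximal hϖ hx0 h𝔪 hq𝔪 hun) (ctIdeal_pi hx0 hq𝔪))
  exact kcAbsCusp_h11 A E₀ Ω hinj q hq hϖ x hx hfd hΩ n hn hnu ζ hζ V20 V11 V02 hC hV20 hU20
    hV11 Z hZ hZq hV02 hU02 happ u hu20 hu11 hu02 _ _ (hroot _ _ hωα₀₁ hωα₁₀)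
    (hroot _ _ hωβ₀₁ hωβ₁₀) hlocf hloci yc hyc 𝔪c h𝔪c hqc Vc hVc hTc hcusp

end Fermat.Agent.H19.SS2

end
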