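/-
P-SS2 row 1058 (SS2-A11 ASM-CORE, owner helper19), part 4: ASM-CORE on the keystone interface
`Val3Data` + `Val3Base`, starting from the function `f` itself.

`asmCoreF` = steps S1 + S2 (helper87's `val3_one_unit`: the one-unit
`u₂ = f ^ ((q+1)(q-1)) · κ · G ^ m`) composed with `asmCore` (steps S3 - S5).  Derived inside:
the four norm reductions for constants (helper68's `normRedConstAt_val3`), weak approximation
(helper37's `weakApprox_dvr`), the uniformisers and the verticality of the three valuations,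
`m ∈ Aˣ`, a primitive `m`-th root of unity in `A`.

Conclusion: `f ^ (q (q² - 1) (q + 1) (q - 1)) = κ · w ^ m` with a constant `κ ≠ 0`.
-/
import Fermat.Agent.H19.SS2.AsmCore
import Fermat.Agent.H87.SS2.Val3Final
import Fermat.Agent.H68.SS2.NormRedVal3
import Fermat.Agent.H37.SS2.WeakApprox

set_option autoImplicit false
set_option linter.style.haveILetI false

noncomputable section

namespace Fermat.Agent.H19.SS2

open Fermat.Agent.H22.KL Fermat.Agent.H11.SS2 Fermat.Agent.H68.SS2 Fermat.Agent.H87.SS2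

section OrdDvd

variable {E₀ : Type} [Field E₀]

theorem asm_ordDvd_pow {v : ValuationSubring E₀} {n : ℕ} {u : E₀} (h : OrdDvd E₀ v n u)
    (k : ℕ) : OrdDvd E₀ v n (u ^ k) := by
  obtain ⟨t, ht, h1, h2⟩ := h
  have e : u ^ k * (t ^ k) ^ n = (u * t ^ n) ^ k := by
    rw [mul_pow, ← pow_mul, ← pow_mul, mul_comm k n]
  refine ⟨t ^ k, pow_ne_zero _ ht, ?_, ?_⟩
  · rw [e]
    exact v.pow_mem h1 k
  · rw [e, ← inv_pow]
    exact v.pow_mem h2 k

theorem asm_ordDvd_mul_unit {v : ValuationSubring E₀} {n : ℕ} {u c : E₀}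
    (h : OrdDvd E₀ v n u) (hc : c ∈ v) (hc' : c⁻¹ ∈ v) : OrdDvd E₀ v n (u * c) := by
  obtain ⟨t, ht, h1, h2⟩ := h
  have e : u * c * t ^ n = u * t ^ n * c := by ring
  refine ⟨t, ht, ?_, ?_⟩
  · rw [e]
    exact v.mul_mem _ _ h1 hc
  · rw [e, mul_inv]
    exact v.mul_mem _ _ h2 hc'

theorem asm_ordDvd_mul_pow {v : ValuationSubring E₀} {n : ℕ} {u G : E₀}
    (h : OrdDvd E₀ v n u) (hG : G ≠ 0) : OrdDvd E₀ v n (u * G ^ n) := by
  obtain ⟨t, ht, h1, h2⟩ := h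
  have e : u * G ^ n * (t / G) ^ n = u * t ^ n := by
    rw [div_pow]
    field_simp
  refine ⟨t / G, div_ne_zero ht hG, ?_, ?_⟩
  · rw [e]
    exact h1
  · rw [e]
    exact h2

/-- A non-zero non-unit shows that the valuation subring is not the whole field. -/
theorem asm_ne_top_of_mem_nonunits {V : ValuationSubring E₀} {z : E₀} (hz0 : z ≠ 0)
    (hz : z ∈ V.nonunits) : V ≠ ⊤ := by
  intro h
  have h1 : V.valuation z < 1 := (ValuationSubring.mem_nonunits_iff V).mp hz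
  have h2 : z⁻¹ ∈ V := by rw [h]; exact ValuationSubring.mem_top _
  have h3 : V.valuation z⁻¹ ≤ 1 := (V.valuation_le_one_iff _).mpr h2
  rw [map_inv₀] at h3
  have h4 : V.valuation z ≠ 0 := (Valuation.ne_zero_iff _).mpr hz0
  have h5 : 1 ≤ V.valuation z := (inv_le_one₀ (zero_lt_iff.mpr h4)).mp h3
  exact absurd h1 (not_lt.mpr h5)

theorem asm_mul_mem_nonunits {V : ValuationSubring E₀} {a z : E₀} (ha : a ∈ V)
    (hz : z ∈ V.nonunits) : a * z ∈ V.nonunits := by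
  rw [ValuationSubring.mem_nonunits_iff] at hz ⊢
  rw [map_mul]
  have h1 := (V.valuation_le_one_iff a).2 ha
  calc V.valuation a * V.valuation z ≤ 1 * V.valuation z := by gcongr
    _ = V.valuation z := one_mul _
    _ < 1 := hz

end OrdDvd

section Const

variable {A : Type} [CommRing A] {K : Type} [Field K] [Algebra A K]

/-- A unit of `OK = A` comes from a unit of `A`. -/
theorem asm_const_unit (hinjK : Function.Injective (algebraMap A K)) (OK : ValuationSubring K)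
    (hOK : ∀ k : K, k ∈ OK ↔ ∃ a : A, algebraMap A K a = k) {p : K}
    (hp : OK.valuation p = 1) : ∃ a : A, IsUnit a ∧ algebraMap A K a = p := by
  have h1 : p ∈ OK := (OK.valuation_le_one_iff p).mp hp.le
  have h2 : p⁻¹ ∈ OK := by
    apply (OK.valuation_le_one_iff p⁻¹).mp
    rw [map_inv₀, hp, inv_one]
  obtain ⟨a, ha⟩ := (hOK p).1 h1
  obtain ⟨b, hb⟩ := (hOK p⁻¹).1 h2
  have hp0 : p ≠ 0 := by
    intro h0
    rw [h0, map_zero] at hp
    exact zero_ne_one hp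
  refine ⟨a, ?_, ha⟩
  refine IsUnit.of_mul_eq_one b ?_
  apply hinjK
  rw [map_mul, ha, hb, map_one, mul_inv_cancel₀ hp0]

end Const

/-- **ASM-CORE from the function `f`** (steps S1 - S5 of findings #471 on `Val3Data`). -/
theorem asmCoreF
    (A : Type) [CommRing A] [IsDomain A] [IsDiscreteValuationRing A]
    (K F E₀ Ω : Type) [Field K] [Field F] [Field E₀] [Field Ω]
    [Algebra A K] [Algebra A F] [Algebra A E₀] [Algebra A Ω] [Algebra E₀ Ω]
    [IsScalarTower A E₀ Ω] [CharZero E₀]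
    (hinj : Function.Injective (algebraMap A E₀))
    (q : ℕ) (hq : q.Prime) (hϖ : Irreducible ((q : ℕ) : A))
    (x : E₀) (hx : Transcendental A x)
    (hfd : ∃ d : ℕ, Nonempty (Module.Basis (Fin d) (chartField A E₀ x) E₀))
    (hΩ : ∀ z : Ω, IsIntegral A z → z ∈ (algebraMap A Ω).range)
    (m : ℕ) (hqm : Nat.Coprime q m)
    -- the constants: `A = OK ⊆ K`
    (iF : K →+* F) (OK : ValuationSubring K) (K0 : Subgroup Kˣ)
    (hAK : ∀ a : A, iF (algebraMap A K a) = algebraMap A F a)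
    (hOK : ∀ k : K, k ∈ OK ↔ ∃ a : A, algebraMap A K a = k)
    -- the two levels and the three vertical valuations
    (α β : F →+* E₀)
    (hαA : ∀ a : A, α (algebraMap A F a) = algebraMap A E₀ a)
    (hβA : ∀ a : A, β (algebraMap A F a) = algebraMap A E₀ a)
    (O₁ O₂ : ValuationSubring F) (V20 V11 V02 : ValuationSubring E₀) (Y₁ : F) (Z : E₀)
    (hB : Val3Base iF α β OK O₁ O₂ q m K0)
    (hD : Val3Data α β O₁ O₂ V20 V11 V02 q Y₁ Z)
    (hdα : @FiniteDimensional F E₀ _ _ (@Algebra.toModule F E₀ _ _ α.toAlgebra) ∧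
      @Module.finrank F E₀ _ _ (@Algebra.toModule F E₀ _ _ α.toAlgebra) = q)
    (hdβ : @FiniteDimensional F E₀ _ _ (@Algebra.toModule F E₀ _ _ β.toAlgebra) ∧
      @Module.finrank F E₀ _ _ (@Algebra.toModule F E₀ _ _ β.toAlgebra) = q)
    (hC : ∀ z : E₀, z ∈ gaussClosure A E₀ ((q : ℕ) : A) x ↔ z ∈ V20 ∧ z ∈ V11 ∧ z ∈ V02)
    (hvert : ∀ V' : ValuationSubring E₀, IsVertical A E₀ ((q : ℕ) : A) x V' →
      V' = V20 ∨ V' = V11 ∨ V' = V02)
    -- the function `f` and its two norms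
    (f : E₀ˣ) (γ γ' : Kˣ) (hγ : γ ∈ K0) (hγ' : γ' ∈ K0) (h h' : Fˣ)
    (hNα : @Algebra.norm F E₀ _ _ α.toAlgebra (f : E₀) = iF (γ : K) * (h : F) ^ m)
    (hNβ : @Algebra.norm F E₀ _ _ β.toAlgebra (f : E₀) = iF (γ' : K) * (h' : F) ^ m)
    (hord : ∀ V' : ValuationSubring E₀, IsPlace A E₀ V' → OrdDvd E₀ V' m (f : E₀))
    -- the closed points
    (hptf : ∀ 𝔪 : Ideal (chartClosure A E₀ x), 𝔪.IsMaximal →
      algebraMap A (chartClosure A E₀ x) ((q : ℕ) : A) ∈ 𝔪 →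
      AsmPt A F E₀ q α β O₁ O₂ V20 V11 V02 x 𝔪)
    (hpti : ∀ 𝔪 : Ideal (chartClosure A E₀ x⁻¹), 𝔪.IsMaximal →
      algebraMap A (chartClosure A E₀ x⁻¹) ((q : ℕ) : A) ∈ 𝔪 →
      (∃ h : x⁻¹ ∈ chartClosure A E₀ x⁻¹, (⟨x⁻¹, h⟩ : chartClosure A E₀ x⁻¹) ∈ 𝔪) →
      AsmPt A F E₀ q α β O₁ O₂ V20 V11 V02 x⁻¹ 𝔪)
    -- the cusp
    (yc : E₀) (hyc : yc = x ∨ yc = x⁻¹)
    (𝔪c : Ideal (chartClosure A E₀ yc)) (h𝔪c : 𝔪c.IsMaximal)
    (hqc : algebraMap A (chartClosure A E₀ yc) ((q : ℕ) : A) ∈ 𝔪c)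
    (Vc : ValuationSubring E₀) (hVc : Vc = V20 ∨ Vc = V11 ∨ Vc = V02)
    (hTc : Through A E₀ yc 𝔪c Vc)
    (hcusp : ∀ ε : E₀, IsLocUnit A E₀ yc 𝔪c ε → CongrAt E₀ Vc ε 1 →
      ∃ (c d : A) (ω : Ω), c = 1 + ((q : ℕ) : A) * d ∧
        ω ^ m = algebraMap A Ω c * algebraMap E₀ Ω ε) :
    ∃ (κ : K) (w : E₀), κ ≠ 0 ∧
      w ^ m = α (iF κ) * (f : E₀) ^ ((q + 1) * (q - 1) * (q * (q ^ 2 - 1))) := by
  have hm : 0 < m := hB.m_pos
  haveI : CharZero F := (RingHom.charZero_iff α.injective).mpr inferInstance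
  have hιq : algebraMap A E₀ ((q : ℕ) : A) = (q : E₀) := map_natCast _ q
  have hAE : ∀ a : A, α (iF (algebraMap A K a)) = algebraMap A E₀ a := fun a => by
    rw [hAK, hαA]
  have hinjK : Function.Injective (algebraMap A K) := fun a b hab =>
    hinj (by rw [← hAE, ← hAE, hab])
  -- `A ⊆ O₁, O₂`
  have hKO₁ : ∀ k : K, k ∈ OK → iF k ∈ O₁ := fun k hk => by
    have h1 : k ∈ O₁.comap iF := by rw [hB.comap₁]; exact hk
    exact h1
  have hKO₂ : ∀ k : K, k ∈ OK → iF k ∈ O₂ := fun k hk => by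
    have h1 : k ∈ O₂.comap iF := by rw [hB.comap₂]; exact hk
    exact h1
  have hA₁ : ∀ a, algebraMap A F a ∈ O₁ := fun a => by
    rw [← hAK]
    exact hKO₁ _ ((hOK _).2 ⟨a, rfl⟩)
  have hA₂ : ∀ a, algebraMap A F a ∈ O₂ := fun a => by
    rw [← hAK]
    exact hKO₂ _ ((hOK _).2 ⟨a, rfl⟩)
  obtain ⟨N1, N2, N3, N4⟩ := normRedConstAt_val3 A α β hαA hβA O₁ O₂ hB.pir₁ hB.pir₂ hA₁ hA₂
    V20 V11 V02 q hq.pos Y₁ Z hB.unif₁ hB.unif₂ hdα hdβ hD
  -- `m` is a unit of `A`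
  have hnu : IsUnit ((m : ℕ) : A) := by
    by_contra hmA
    have h1 : ((m : ℕ) : A) ∈ IsLocalRing.maximalIdeal A := hmA
    have h2 : ((q : ℕ) : A) ∈ IsLocalRing.maximalIdeal A := hϖ.not_isUnit
    obtain ⟨a, b, hab⟩ := (Nat.isCoprime_iff_coprime.mpr hqm)
    have h3 : ((a : ℤ) : A) * ((q : ℕ) : A) + ((b : ℤ) : A) * ((m : ℕ) : A) = 1 := by
      have := congrArg (fun z : ℤ => (z : A)) hab
      simpa using this
    have h4 : (1 : A) ∈ IsLocalRing.maximalIdeal A := by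
      rw [← h3]
      exact Ideal.add_mem _ (Ideal.mul_mem_left _ _ h2) (Ideal.mul_mem_left _ _ h1)
    exact (Ideal.ne_top_iff_one _).mp (IsLocalRing.maximalIdeal.isMaximal A).ne_top h4
  -- a primitive `m`-th root of unity in `A`
  obtain ⟨ζK, hζK⟩ := hB.roots
  obtain ⟨ζ, -, hζe⟩ := asm_const_unit hinjK OK hOK
    (kc_val_of_pow_eq_one OK hm hζK.pow_eq_one)
  have hζ : IsPrimitiveRoot ζ m := by
    rw [← hζe] at hζK
    exact IsPrimitiveRoot.of_map_of_injective (f := algebraMap A K) hζK hinjK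
  -- the three vertical valuations
  have hU20 : IsUniformiser E₀ V20 (q : E₀) := hD.unif₂₀
  have hU02 : IsUniformiser E₀ V02 (q : E₀) := hD.unif₀₂
  have hZ : IsUniformiser E₀ V11 Z := hD.unif₁₁
  have hq0 : (q : E₀) ≠ 0 := hU20.1
  have hZ0 : Z ≠ 0 := hZ.1
  have hq11 : (q : E₀) ∈ V11.nonunits := by
    have e : (q : E₀) = (q : E₀) / Z ^ (q - 1) * Z ^ (q - 2) * Z := by
      have hq2 : q - 1 = (q - 2) + 1 := by have := hq.two_le; omega
      rw [hq2, pow_succ]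
      field_simp
    rw [e]
    exact asm_mul_mem_nonunits (V11.mul_mem _ _ hD.ram₁₁.1 (V11.pow_mem (V11.nonunits_le hZ.2.1) _))
      hZ.2.1
  have hZq : Z ^ q / (q : E₀) ∈ V11 := by
    have e : Z ^ q / (q : E₀) = Z * ((q : E₀) / Z ^ (q - 1))⁻¹ := by
      have hq2 : q = (q - 1) + 1 := by have := hq.two_le; omega
      rw [inv_div]
      nth_rewrite 1 [hq2]
      rw [pow_succ]
      field_simp
    rw [e]
    exact V11.mul_mem _ _ (V11.nonunits_le hZ.2.1) hD.ram₁₁.2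
  have hV20 : IsVertical A E₀ ((q : ℕ) : A) x V20 :=
    ⟨asm_ne_top_of_mem_nonunits hq0 hU20.2.1, hD.pir₂₀, fun z hz => ((hC z).1 hz).1,
      by rw [hιq]; exact hU20.2.1⟩
  have hV11 : IsVertical A E₀ ((q : ℕ) : A) x V11 :=
    ⟨asm_ne_top_of_mem_nonunits hq0 hq11, hD.pir₁₁, fun z hz => ((hC z).1 hz).2.1,
      by rw [hιq]; exact hq11⟩
  have hV02 : IsVertical A E₀ ((q : ℕ) : A) x V02 :=
    ⟨asm_ne_top_of_mem_nonunits hq0 hU02.2.1, hD.pir₀₂, fun z hz => ((hC z).1 hz).2.2,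
      by rw [hιq]; exact hU02.2.1⟩
  -- weak approximation
  have hdvr : ∀ V : ValuationSubring E₀, IsPrincipalIdealRing V → (q : E₀) ∈ V.nonunits →
      IsDiscreteValuationRing V := by
    intro V hpir hqV
    haveI := hpir
    exact
      { not_a_field' := by
          intro hbot
          have hmem : (⟨(q : E₀), V.nonunits_le hqV⟩ : V) ∈ IsLocalRing.maximalIdeal V :=
            ValuationSubring.coe_mem_nonunits_iff.1 hqV
          rw [hbot, Ideal.mem_bot] at hmem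
          exact hq0 (congrArg (fun t : V => (t : E₀)) hmem) }
  have happ : ∀ a b c : E₀, ∃ g : E₀,
      g - a ∈ V20.nonunits ∧ g - b ∈ V11.nonunits ∧ g - c ∈ V02.nonunits := by
    intro a b c
    have hVinj : Function.Injective ![V20, V11, V02] := by
      intro i j hij
      fin_cases i <;> fin_cases j <;> first
        | rfl
        | exact absurd hij hD.ne₁
        | exact absurd hij hD.ne₂
        | exact absurd hij hD.ne₃
        | exact absurd hij.symm hD.ne₁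
        | exact absurd hij.symm hD.ne₂
        | exact absurd hij.symm hD.ne₃
    obtain ⟨g, hg⟩ := Fermat.Agent.H37.SS2.weakApprox_dvr ![V20, V11, V02] hVinj
      (by
        intro i
        fin_cases i
        · exact hdvr V20 hD.pir₂₀ hU20.2.1
        · exact hdvr V11 hD.pir₁₁ hq11
        · exact hdvr V02 hD.pir₀₂ hU02.2.1)
      ![a, b, c] ![(q : E₀), (q : E₀), (q : E₀)]
      (by intro i; fin_cases i <;> exact hq0)
    obtain ⟨c0, hc0, e0⟩ := hg 0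
    obtain ⟨c1, hc1, e1⟩ := hg 1
    obtain ⟨c2, hc2, e2⟩ := hg 2
    simp only [Matrix.cons_val_zero, Matrix.cons_val_one, Matrix.cons_val] at e0 e1 e2 hc0 hc1 hc2
    refine ⟨g, ?_, ?_, ?_⟩
    · rw [e0, mul_comm]; exact asm_mul_mem_nonunits hc0 hU20.2.1
    · rw [e1, mul_comm]; exact asm_mul_mem_nonunits hc1 hq11
    · rw [e2, mul_comm]; exact asm_mul_mem_nonunits hc2 hU02.2.1
  -- steps S1 + S2: the one-unit
  obtain ⟨κ, G, u₂, -, hu₂, h20, h11, h02,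
    ⟨pα, hα, ωα10, ωα01, hpα, -, hωα10, hωα01, hNαu, hhα1, hhα2⟩,
    ⟨pβ, hβ, ωβ10, ωβ01, hpβ, -, hωβ10, hωβ01, hNβu, hhβ1, hhβ2⟩⟩ :=
    val3_one_unit hq hB hD hdα hdβ hqm f γ γ' hγ hγ' h h' hNα hNβ
  -- constants of `A`
  obtain ⟨pαA, hpαu, hpαe⟩ := asm_const_unit hinjK OK hOK (asm_val_eq_one OK hpα)
  obtain ⟨pβA, hpβu, hpβe⟩ := asm_const_unit hinjK OK hOK (asm_val_eq_one OK hpβ)
  have hrootA : ∀ ω : K, ω ^ m = 1 → ∃ a : A, a ^ m = 1 ∧ algebraMap A K a = ω ∧ ω ≠ 0 ∧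
      ω ∈ OK := by
    intro ω hω
    have hv := kc_val_of_pow_eq_one OK hm hω
    obtain ⟨a, -, ha⟩ := asm_const_unit hinjK OK hOK hv
    refine ⟨a, ?_, ha, ?_, (OK.valuation_le_one_iff ω).mp hv.le⟩
    · apply hinjK
      rw [map_pow, ha, hω, map_one]
    · intro h0
      rw [h0, zero_pow hm.ne'] at hω
      exact zero_ne_one hω
  have hcongr : ∀ (O : ValuationSubring F) (hh : F) (ω : K) (a : A),
      algebraMap A K a = ω → ω ≠ 0 → iF ω ∈ O → hh / iF ω - 1 ∈ O.nonunits →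
      hh - algebraMap A F a ∈ O.nonunits := by
    intro O hh ω a ha hω0 hωO hc
    have hω0' : iF ω ≠ 0 := (map_ne_zero iF).mpr hω0
    have e : hh - algebraMap A F a = iF ω * (hh / iF ω - 1) := by
      rw [← hAK, ha]
      field_simp
    rw [e]
    exact asm_mul_mem_nonunits hωO hc
  obtain ⟨wα10, hwα10, ewα10, nwα10, mwα10⟩ := hrootA ωα10 hωα10
  obtain ⟨wα01, hwα01, ewα01, nwα01, mwα01⟩ := hrootA ωα01 hωα01
  obtain ⟨wβ10, hwβ10, ewβ10, nwβ10, mwβ10⟩ := hrootA ωβ10 hωβ10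
  obtain ⟨wβ01, hwβ01, ewβ01, nwβ01, mwβ01⟩ := hrootA ωβ01 hωβ01
  -- the order of `u₂` at the places
  have hκunit : ∀ V' : ValuationSubring E₀, IsPlace A E₀ V' →
      α (iF (κ : K)) ∈ V' ∧ (α (iF (κ : K)))⁻¹ ∈ V' := by
    intro V' hV'
    rcases OK.mem_or_inv_mem (κ : K) with hk | hk
    · obtain ⟨a, ha⟩ := (hOK _).1 hk
      have ha0 : a ≠ 0 := by
        intro h0
        rw [h0, map_zero] at ha
        exact κ.ne_zero ha.symm
      rw [← ha, hAE]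
      exact hV'.2.2 a ha0
    · obtain ⟨a, ha⟩ := (hOK _).1 hk
      have ha0 : a ≠ 0 := by
        intro h0
        rw [h0, map_zero] at ha
        exact inv_ne_zero κ.ne_zero ha.symm
      have e : α (iF (κ : K)) = (algebraMap A E₀ a)⁻¹ := by
        rw [← hAE, ha, map_inv₀, map_inv₀, inv_inv]
      rw [e, inv_inv]
      exact ⟨(hV'.2.2 a ha0).2, (hV'.2.2 a ha0).1⟩
  have hordu : ∀ V' : ValuationSubring E₀, IsPlace A E₀ V' → OrdDvd E₀ V' m (u₂ : E₀) := by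
    intro V' hV'
    rw [hu₂]
    exact asm_ordDvd_mul_pow (asm_ordDvd_mul_unit (asm_ordDvd_pow (hord V' hV') _)
      (hκunit V' hV').1 (hκunit V' hV').2) G.ne_zero
  -- steps S3 - S5
  obtain ⟨c, d, w₀, hcd, hw₀⟩ := asmCore A F E₀ Ω hinj q hq hϖ x hx hfd hΩ m hm hnu ζ hζ
    V20 V11 V02 hC hvert hV20 hU20 hV11 Z hZ hZq hV02 hU02 happ α β hαA hβA hdα.1 hdβ.1 O₁ O₂
    N1 N2 N3 N4 (u₂ : E₀) ⟨KcU1.mem h20, h20⟩ ⟨KcU1.mem h11, h11⟩ ⟨KcU1.mem h02, h02⟩ hordu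
    hα pαA wα10 wα01 hpαu (by rw [← hAK, hpαe, hNαu]) hwα10 hwα01
    (hcongr O₁ hα ωα10 wα10 ewα10 nwα10 (hKO₁ _ mwα10) hhα1)
    (hcongr O₂ hα ωα01 wα01 ewα01 nwα01 (hKO₂ _ mwα01) hhα2)
    hβ pβA wβ10 wβ01 hpβu (by rw [← hAK, hpβe, hNβu]) hwβ10 hwβ01
    (hcongr O₁ hβ ωβ10 wβ10 ewβ10 nwβ10 (hKO₁ _ mwβ10) hhβ1)
    (hcongr O₂ hβ ωβ01 wβ01 ewβ01 nwβ01 (hKO₂ _ mwβ01) hhβ2)
    hptf hpti yc hyc 𝔪c h𝔪c hqc Vc hVc hTc hcusp
  -- conclusion
  have hc0 : c ≠ 0 := by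
    intro h0
    apply hϖ.not_isUnit
    refine IsUnit.of_mul_eq_one (-d) ?_
    have : 1 + ((q : ℕ) : A) * d = 0 := by rw [← hcd, h0]
    linear_combination -this
  have hG0 : (G : E₀) ≠ 0 := G.ne_zero
  refine ⟨algebraMap A K c * (κ : K) ^ (q * (q ^ 2 - 1)), w₀ / (G : E₀) ^ (q * (q ^ 2 - 1)),
    mul_ne_zero ((map_ne_zero_iff _ hinjK).mpr hc0) (pow_ne_zero _ κ.ne_zero), ?_⟩
  rw [div_pow, hw₀, hu₂, map_mul, map_mul, hAE, map_pow, map_pow]
  have hGm : ((G : E₀) ^ (q * (q ^ 2 - 1))) ^ m ≠ 0 := pow_ne_zero _ (pow_ne_zero _ hG0)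
  rw [div_eq_iff hGm]
  ring

end Fermat.Agent.H19.SS2

end
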